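/-
GATE-B / GB-PNEW, leaf (ANN) of helper32 6127 (helper44): **`T_Q` is a quotient of the Hecke algebra
of the new sub-lattice.**

`tw : heckeAlgebra N' 2 S →+* End_O (Hom_par(Γ_H(N), O))` the twist ring homomorphism (ANY ring hom
with the generator formula), `RChain` its intertwiner (`GB/B4/Twist/TwR`), `S₁ S₂` two coset systems
out of `Γ₀(N')` (the two `p`-degeneracy transfers), `Λ' ≤ Lam N'` a subgroup containing
`ker S₁ ∩ ker S₂`, `M_Q` a set of parabolic classes all of whose `RChain`-components are killed by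
`S₁`, `S₂` (binder `hcores`, leaf (HC)).  Then every `t₀ ∈ O ⊗ heckeAlgebra` killing `O ⊗ Λ'` kills
`M_Q`:  `twO O tw t₀ v = 0` (`ann`) — the `hAnn` binder of `GB/B10/L/AnnChi.hann_of_twO`.

Steps: (ii) FLATNESS = helper81's `NewExpansion.exists_new_expansion`; (iii) `coeffAct` on
`k • Φ`, `Φ ∈ Lam N'`, is `latAct` (`coeffAct_intK`), extended `O`-linearly (`twO_coeffAct_intK`).
-/
import Mathlib
import Fermat.Agent.GE8.P3B.GB.B4.Twist.TwR
import Fermat.Agent.GB.B4.Datum.ImageRing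
import Fermat.Agent.GB.B10.KumLevelHecke
import Fermat.Agent.GB.B10.L.NewExpansion
import Fermat.Agent.GE8.P3B.StepGen
import Fermat.Agent.GE8.P3B.Ok3W

/- TWIN (helper6 B4 generator; conventions of helper24 / helper86) of `Fermat.Agent.GB.B10.L.Ann` with `p ≠ 3` relaxed to `Ok3A Sy 𝔪 p` / `Ok3W p W` (RISK-5 fix (B), step B4); everything below lives in the wrapper namespace `Fermat.Agent.GE8.P3B`. -/
set_option linter.dupNamespace false
open Fermat Fermat.Agent Fermat.Agent.GB Fermat.Agent.GB.B10 Fermat.Agent.GB.B10.L Fermat.Agent.GB.B3 Fermat.Agent.GB.B3.EisGamma0 Fermat.Agent.GB.B3.GamH Fermat.Agent.GB.B4 Fermat.Agent.GB.B4.Datum Fermat.Agent.GB.B4.Datum.ImageRing Fermat.Agent.GB.B4.Twist Fermat.Agent.GB.B4.Twist.Asm Fermat.Agent.GB.B4.Twist.Chain Fermat.Agent.GB.B4.Twist.ChainD Fermat.Agent.GB.B4.Twist.Coeff Fermat.Agent.GJ Fermat.Agent.GJ.J2 Fermat.Agent.GJ.J2.Lat Fermat.Agent.GJ.J2.LatAct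 Fermat.Agent.GJ.J2.ZStruct Fermat.Agent.GJ.Tate Fermat.Agent.GJ.Tate.Lim Fermat.Agent.GM Fermat.Agent.GM.B Fermat.Agent.S16_helper49

namespace Fermat.Agent.GE8.P3B

set_option autoImplicit false
set_option linter.unusedSectionVars false

noncomputable section

open scoped MatrixGroups TensorProduct
open CongruenceSubgroup Matrix Matrix.SpecialLinearGroup ModularCurve.Period CuspForm
open S16_helper49 GM.B
open GB.B3 GB.B3.EisGamma0 GB.B3.GamH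
open GJ.J2.ZStruct GJ.J2.Lat GJ.J2.LatAct
open GB.B4.Twist.Chain GB.B4.Twist.ChainD
open GB.B4.Twist.Asm GB.B4.Twist.Coeff GB.B4.Twist.TwR
open GB.B4.Datum.ImageRing GJ.Tate GJ.Tate.Lim

namespace GB.B10.L.Ann

/-! ### the lattice inside `K`-valued classes -/

section Lattice

variable (N : ℕ) [NeZero N] (S : Set ℕ)
  {O : Type} [CommRing O] [IsLocalRing O] {K : Type} [Field K] [CharZero K] [Algebra O K]

/-- the class `k • Φ : Γ₀(N) → K` of a lattice vector `Φ` and a scalar `k` -/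
def intK (Φ : Lam N) (k : K) : Additive (Gamma0 N) →+ K :=
  (zmultiplesHom K k).comp (Φ : Additive (Gamma0 N) →+ ℤ)

theorem intK_apply (Φ : Lam N) (k : K) (g : Additive (Gamma0 N)) :
    intK N Φ k g = ((Φ : Additive (Gamma0 N) →+ ℤ) g : ℤ) • k := rfl

theorem intK_par (Φ : Lam N) (k : K) : IsParabolicHom (Gamma0 N) (intK N Φ k) := by
  intro γ hγ
  rw [intK_apply, Φ.2 γ hγ, zero_smul]

/-- the class `k • Φ` as an element of `Hom_par(Γ₀(N), K)`, `O`-module structure -/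
def intKO (Φ : Lam N) (k : K) : ↥(parabolicHoms O (Gamma0 N) K) := ⟨intK N Φ k, intK_par N Φ k⟩

theorem hZ : ∀ (n : ℤ) (b : ℤ), n ≠ 0 → n • b = 0 → b = 0 := by
  intro n b hn h
  rw [smul_eq_mul] at h
  rcases mul_eq_zero.mp h with h | h
  · exact absurd h hn
  · exact h

/-- **`coeffAct` on `k • Φ` is `latAct` on `Φ`** -/
theorem coeffAct_intK (t : ↥(heckeAlgebra N 2 S)) (Φ : Lam N) (k : K) :
    ((coeffAct N S O (hA_field K) t (intKO N Φ k) : ↥(parabolicHoms O (Gamma0 N) K)) :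
        Additive (Gamma0 N) →+ K)
      = intK N (latAct N S t Φ) k := by
  have h1 := coeffAct_comp N S ℤ hZ (hA_field K) (zmultiplesHom K k) t Φ
    (intKO (O := O) N Φ k) rfl
  rw [h1, coeffAct_int]
  rfl

/-- the additive map `O ⊗ Λ → K`, `o ⊗ Ψ ↦ Ψ(g) • (o · k)` -/
def mu (k : K) (g : Additive (Gamma0 N)) : O ⊗[ℤ] Lam N →+ K :=
  TensorProduct.liftAddHom
    (AddMonoidHom.mk' (fun o : O => AddMonoidHom.mk'
        (fun Ψ : Lam N => ((Ψ : Additive (Gamma0 N) →+ ℤ) g : ℤ) • (algebraMap O K o * k))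
        (fun Ψ Ψ' => by
          show (((Ψ + Ψ' : Lam N) : Additive (Gamma0 N) →+ ℤ) g : ℤ) • _ = _
          rw [Submodule.coe_add, AddMonoidHom.add_apply, add_smul]))
      (fun o o' => by
        refine AddMonoidHom.ext fun Ψ => ?_
        show ((Ψ : Additive (Gamma0 N) →+ ℤ) g : ℤ) • (algebraMap O K (o + o') * k)
          = ((Ψ : Additive (Gamma0 N) →+ ℤ) g : ℤ) • (algebraMap O K o * k)
            + ((Ψ : Additive (Gamma0 N) →+ ℤ) g : ℤ) • (algebraMap O K o' * k)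
        rw [map_add, add_mul, smul_add]))
    (fun r o Ψ => by
      show ((Ψ : Additive (Gamma0 N) →+ ℤ) g : ℤ) • (algebraMap O K (r • o) * k)
        = (((r • Ψ : Lam N) : Additive (Gamma0 N) →+ ℤ) g : ℤ) • (algebraMap O K o * k)
      rw [Submodule.coe_smul, AddMonoidHom.smul_apply, map_zsmul, smul_mul_assoc, smul_smul,
        smul_eq_mul, mul_comm])

theorem mu_tmul (k : K) (g : Additive (Gamma0 N)) (o : O) (Ψ : Lam N) :
    mu N k g (o ⊗ₜ[ℤ] Ψ) = ((Ψ : Additive (Gamma0 N) →+ ℤ) g : ℤ) • (algebraMap O K o * k) :=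
  rfl

/-- **the `O`-linear extension of `coeffAct` on `k • Φ`** is computed on `O ⊗ Λ` -/
theorem twO_coeffAct_intK (t₀ : O ⊗[ℤ] ↥(heckeAlgebra N 2 S)) (Φ : Lam N) (k : K)
    (g : Additive (Gamma0 N)) :
    ((twO O (coeffAct N S O (hA_field K)) t₀ (intKO N Φ k) : ↥(parabolicHoms O (Gamma0 N) K)) :
        Additive (Gamma0 N) →+ K) g
      = mu N k g (tensorEndAlg O (latAct N S).toIntAlgHom t₀ ((1 : O) ⊗ₜ[ℤ] Φ)) := by
  induction t₀ using TensorProduct.induction_on with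
  | zero =>
    rw [map_zero, map_zero, LinearMap.zero_apply, LinearMap.zero_apply, map_zero]
    rfl
  | add a b ha hb =>
    rw [map_add, map_add, LinearMap.add_apply, LinearMap.add_apply, map_add, ← ha, ← hb]
    rfl
  | tmul o t =>
    rw [twO_tmul, tensorEndAlg_tmul, LinearMap.smul_apply, LinearMap.smul_apply]
    have e1 : ((latAct N S).toIntAlgHom t).baseChange O ((1 : O) ⊗ₜ[ℤ] Φ)
        = (1 : O) ⊗ₜ[ℤ] (latAct N S t Φ) := LinearMap.baseChange_tmul _ _ _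
    rw [e1, TensorProduct.smul_tmul', smul_eq_mul, mul_one, mu_tmul]
    show (o • ((coeffAct N S O (hA_field K) t (intKO N Φ k) :
      ↥(parabolicHoms O (Gamma0 N) K)) : Additive (Gamma0 N) →+ K)) g = _
    rw [coeffAct_intK, AddMonoidHom.smul_apply, intK_apply, Algebra.smul_def, mul_smul_comm]

/-- a class which is a `K`-combination of lattice vectors of `Λ'` is killed by (the `O`-linear
extension of `coeffAct` at) every `t₀` killing `O ⊗ Λ'` -/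
theorem twO_coeffAct_eq_zero (Λ' : AddSubgroup (Lam N)) (t₀ : O ⊗[ℤ] ↥(heckeAlgebra N 2 S))
    (ht₀ : ∀ Φ ∈ Λ', tensorEndAlg O (latAct N S).toIntAlgHom t₀ ((1 : O) ⊗ₜ[ℤ] Φ) = 0)
    (f : ↥(parabolicHoms O (Gamma0 N) K)) {n : ℕ} (c : Fin n → K) (Ψ : Fin n → Lam N)
    (hΨ : ∀ b, Ψ b ∈ Λ')
    (hf : ∀ γ, (f : Additive (Gamma0 N) →+ K) γ
      = ∑ b, c b * ((((Ψ b : Lam N) : Additive (Gamma0 N) →+ ℤ) γ : ℤ) : K)) :
    twO O (coeffAct N S O (hA_field K)) t₀ f = 0 := by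
  have hsum : f = ∑ b, intKO N (Ψ b) (c b) := by
    apply Subtype.ext
    refine AddMonoidHom.ext fun γ => ?_
    rw [hf γ, Submodule.coe_sum, AddMonoidHom.finsetSum_apply]
    refine Finset.sum_congr rfl fun b _ => ?_
    show _ = intK N (Ψ b) (c b) γ
    rw [intK_apply, zsmul_eq_mul, mul_comm]
  rw [hsum, map_sum]
  refine Finset.sum_eq_zero fun b _ => ?_
  apply Subtype.ext
  refine AddMonoidHom.ext fun g => ?_
  rw [twO_coeffAct_intK, ht₀ _ (hΨ b), map_zero]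
  rfl

/-- `coeffAct` over `O` and over `K` agree on the underlying classes -/
theorem coeffAct_O_eq_K (t : ↥(heckeAlgebra N 2 S)) (f : Additive (Gamma0 N) →+ K)
    (hf : IsParabolicHom (Gamma0 N) f) :
    ((coeffAct N S O (hA_field K) t ⟨f, hf⟩ : ↥(parabolicHoms O (Gamma0 N) K)) :
        Additive (Gamma0 N) →+ K)
      = ((coeffAct N S K (hA_field K) t ⟨f, hf⟩ : ↥(parabolicHoms K (Gamma0 N) K)) :
        Additive (Gamma0 N) →+ K) := by
  have h1 := coeffAct_comp N S K (hA_field K) (K' := O) (hA_field K) (AddMonoidHom.id K) t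
    (⟨f, hf⟩ : ↥(parabolicHoms K (Gamma0 N) K)) (⟨f, hf⟩ : ↥(parabolicHoms O (Gamma0 N) K)) rfl
  rw [h1, AddMonoidHom.id_comp]

end Lattice

/-! ### (ANN) -/

section Main

/-- local instance (Prop-valued class) -/
local instance factPrimeOff7 {S : Set ℕ} (l : PrimesOff S) : Fact (l.1 : ℕ).Prime := ⟨l.1.2⟩

variable {N N' : ℕ} [NeZero N] [NeZero N'] {Δ : Type} [CommGroup Δ] [Fintype Δ]
  (θ : (ZMod N)ˣ →* Δ) (hθ : Function.Surjective θ)
  (S : Set ℕ) (hS : ∀ q : ℕ, q.Prime → q ∣ N' → q ∈ S) (hNN' : N ∣ N')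
  {O : Type} [CommRing O] [IsLocalRing O] {K : Type} [Field K] [CharZero K] [Algebra O K]
  (hinj : Function.Injective (algebraMap O K))
  [Fintype (Δ →* Kˣ)] [HasEnoughRootsOfUnity K (Monoid.exponent Δ)]

variable (Lε : (Δ →* Kˣ) → List (TwDatum K Δ)) (dℓ : PrimesOff S → Gamma0 N)
  (hadm : ∀ ε, Adm N θ (Lε ε)) (hlev : ∀ ε, chainLevel N (Lε ε) = N')
  (rep' : ∀ ε, Δ → Gamma0 (chainLevel N (Lε ε)))
  (hrep' : ∀ ε δ, chi (chainθ N θ (Lε ε)) (rep' ε δ) = δ)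
  (hsq : ∀ ε, ∀ d ∈ Lε ε, ¬ d.r ^ 2 ∣ N)
  (hnd : ∀ ε, (Lε ε).Pairwise (fun d e => d.r ≠ e.r))
  (hψ : ∀ ε, ∀ d ∈ Lε ε, (∀ v : (ZMod d.r)ˣ, d.ψ (v : ZMod d.r) = 1) ∨
    ∃ v : (ZMod d.r)ˣ, d.ψ (v : ZMod d.r) ^ 2 ≠ 1)
  (hν : ∀ (ε : Δ →* Kˣ) (δ : Δ), ((Lε ε).map (fun d => d.ν)).prod δ = ε δ)
  (hc : ∀ (ε : Δ →* Kˣ) (l : PrimesOff S),
    ((ε (chi θ (dℓ l)) : Kˣ) : K) * chainPsi (Lε ε) (l.1 : ℕ) = 1)
  (tw : ↥(heckeAlgebra N' 2 S) →+* Module.End O ↥(parabolicHoms O (GammaH θ) O))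
  (htw : ∀ (l : PrimesOff S) (v : ↥(parabolicHoms O (GammaH θ) O)),
    ((tw (formsGenS N' S l) v : ↥(parabolicHoms O (GammaH θ) O)) : Additive (GammaH θ) →+ O)
      = diaH θ O (dℓ l) (GamH.TH θ O (not_dvd_level S hS hNN' l)
          (v : Additive (GammaH θ) →+ O)))

include hsq hnd hψ hν in
/-- the components of `RChain` are `O`-linear -/
theorem RChainComp_smul (ε : Δ →* Kˣ) (o : O) (v : ↥(parabolicHoms O (GammaH θ) O)) :
    RChainComp θ hθ Lε hadm hlev rep' hrep' ε (o • v)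
      = o • RChainComp θ hθ Lε hadm hlev rep' hrep' ε v := by
  refine AddMonoidHom.ext fun g => ?_
  show RChain θ hθ Lε hadm hlev rep' hrep' (o • v) g ε
    = o • (RChain θ hθ Lε hadm hlev rep' hrep' v g ε)
  rw [RChain_smul θ hθ Lε hadm hlev rep' hrep' hsq hnd hψ hν o v]
  rfl

include hsq hnd hψ hν hc htw in
/-- **the components of `RChain` intertwine the `O`-linear extensions** of `tw` and of `coeffAct` -/
theorem RChainComp_twO (ε : Δ →* Kˣ) (t₀ : O ⊗[ℤ] ↥(heckeAlgebra N' 2 S))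
    (v : ↥(parabolicHoms O (GammaH θ) O)) :
    RChainComp θ hθ Lε hadm hlev rep' hrep' ε (twO O tw t₀ v)
      = ((twO O (coeffAct N' S O (hA_field K)) t₀
          ⟨RChainComp θ hθ Lε hadm hlev rep' hrep' ε v,
            RChainComp_par θ hθ Lε hadm hlev rep' hrep' hsq hnd hψ hν ε v⟩ :
          ↥(parabolicHoms O (Gamma0 N') K)) : Additive (Gamma0 N') →+ K) := by
  induction t₀ using TensorProduct.induction_on with
  | zero =>
    rw [map_zero, map_zero, LinearMap.zero_apply, LinearMap.zero_apply, map_zero]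
    rfl
  | add a b ha hb =>
    rw [map_add, map_add, LinearMap.add_apply, LinearMap.add_apply, map_add, ha, hb]
    rfl
  | tmul o t =>
    have e1 := coeffAct_O_eq_K (O := O) N' S t
      (RChainComp θ hθ Lε hadm hlev rep' hrep' ε v)
      (RChainComp_par θ hθ Lε hadm hlev rep' hrep' hsq hnd hψ hν ε v)
    rw [twO_tmul, twO_tmul, LinearMap.smul_apply, LinearMap.smul_apply,
      RChainComp_smul θ hθ Lε hadm hlev rep' hrep' hsq hnd hψ hν ε o,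
      RChainComp_tw θ hθ S hS hNN' Lε dℓ hadm hlev rep' hrep' hsq hnd hψ hν hc tw htw ε t v,
      ← e1]
    rfl

include hinj hsq hnd hψ hν hc htw in
/-- **(ANN), general form.**  `S₁`, `S₂` two coset systems out of `Γ₀(N')`, `Λ' ≤ Lam N'` containing
`ker S₁ ∩ ker S₂`; if `S₁`, `S₂` kill all the `RChain`-components of the classes in `MQ`, then every
`t₀ ∈ O ⊗ heckeAlgebra` killing `O ⊗ Λ'` kills `MQ`. -/
theorem ann_gen {G : Type*} [Group G] {emb : SL(2, ℤ) →* G} {Γ₂ Γ₃ : Subgroup SL(2, ℤ)}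
    (S₁ : CosetSys emb (Gamma0 N') Γ₂) (S₂ : CosetSys emb (Gamma0 N') Γ₃)
    (Λ' : AddSubgroup (Lam N'))
    (hΛ : ∀ Φ : Lam N', S₁.op ℤ (Φ : Additive (Gamma0 N') →+ ℤ) = 0 →
      S₂.op ℤ (Φ : Additive (Gamma0 N') →+ ℤ) = 0 → Φ ∈ Λ')
    (MQ : Set ↥(parabolicHoms O (GammaH θ) O))
    (hcores : ∀ v ∈ MQ, ∀ ε : Δ →* Kˣ,
      S₁.op K (RChainComp θ hθ Lε hadm hlev rep' hrep' ε v) = 0 ∧
      S₂.op K (RChainComp θ hθ Lε hadm hlev rep' hrep' ε v) = 0)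
    (t₀ : O ⊗[ℤ] ↥(heckeAlgebra N' 2 S))
    (ht₀ : ∀ Φ ∈ Λ', tensorEndAlg O (latAct N' S).toIntAlgHom t₀ ((1 : O) ⊗ₜ[ℤ] Φ) = 0) :
    ∀ v ∈ MQ, twO O tw t₀ v = 0 := by
  intro v hv
  apply RChain_injective θ hθ hinj Lε hadm hlev rep' hrep' hsq hnd hψ hν
  rw [map_zero]
  refine AddMonoidHom.ext fun g => funext fun ε => ?_
  show RChainComp θ hθ Lε hadm hlev rep' hrep' ε (twO O tw t₀ v) g = 0
  rw [RChainComp_twO θ hθ S hS hNN' Lε dℓ hadm hlev rep' hrep' hsq hnd hψ hν hc tw htw ε t₀ v]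
  obtain ⟨n, c, Ψ, h1, h2, hexp⟩ := NewExpansion.exists_new_expansion N' S₁ S₂
    (RChainComp θ hθ Lε hadm hlev rep' hrep' ε v)
    (RChainComp_par θ hθ Lε hadm hlev rep' hrep' hsq hnd hψ hν ε v)
    (hcores v hv ε).1 (hcores v hv ε).2
  rw [twO_coeffAct_eq_zero N' S Λ' t₀ ht₀ _ c Ψ (fun b => hΛ _ (h1 b) (h2 b)) hexp]
  rfl

end Main

/-! ### (ANN) in the spelling of `ShiftSub.exists_hker` / `AnnChi.hann_of_twO` -/

section LevelData

/-- local instance (Prop-valued class) -/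
local instance factPrimeOff8 {S : Set ℕ} (l : PrimesOff S) : Fact (l.1 : ℕ).Prime := ⟨l.1.2⟩

variable {N N' : ℕ} [NeZero N] [NeZero N'] {Δ : Type} [CommGroup Δ] [Fintype Δ]
  (θ : (ZMod N)ˣ →* Δ) (hθ : Function.Surjective θ)
  {p : ℕ} [Fact p.Prime] (S : Finset ℕ) (hpS : p ∈ S)
  (hNS : ∀ q : ℕ, q.Prime → q ∣ N' → q ∈ S) (hNN' : N ∣ N')
  {O : Type} [CommRing O] [IsLocalRing O] {K : Type} [Field K] [CharZero K] [Algebra O K]
  (hinj : Function.Injective (algebraMap O K))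
  [Fintype (Δ →* Kˣ)] [HasEnoughRootsOfUnity K (Monoid.exponent Δ)]

include hNS in
theorem hS_of_hNS : ∀ q : ℕ, q.Prime → q ∣ N' → q ∈ (↑S : Set ℕ) :=
  fun q hq h => Finset.mem_coe.mpr (hNS q hq h)

variable (Lε : (Δ →* Kˣ) → List (TwDatum K Δ)) (dℓ : PrimesOff (↑S : Set ℕ) → Gamma0 N)
  (hadm : ∀ ε, Adm N θ (Lε ε)) (hlev : ∀ ε, chainLevel N (Lε ε) = N')
  (rep' : ∀ ε, Δ → Gamma0 (chainLevel N (Lε ε)))
  (hrep' : ∀ ε δ, chi (chainθ N θ (Lε ε)) (rep' ε δ) = δ)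
  (hsq : ∀ ε, ∀ d ∈ Lε ε, ¬ d.r ^ 2 ∣ N)
  (hnd : ∀ ε, (Lε ε).Pairwise (fun d e => d.r ≠ e.r))
  (hψ : ∀ ε, ∀ d ∈ Lε ε, (∀ v : (ZMod d.r)ˣ, d.ψ (v : ZMod d.r) = 1) ∨
    ∃ v : (ZMod d.r)ˣ, d.ψ (v : ZMod d.r) ^ 2 ≠ 1)
  (hν : ∀ (ε : Δ →* Kˣ) (δ : Δ), ((Lε ε).map (fun d => d.ν)).prod δ = ε δ)
  (hc : ∀ (ε : Δ →* Kˣ) (l : PrimesOff (↑S : Set ℕ)),
    ((ε (chi θ (dℓ l)) : Kˣ) : K) * chainPsi (Lε ε) (l.1 : ℕ) = 1)
  (tw : ↥(heckeAlgebra N' 2 (↑S : Set ℕ)) →+* Module.End O ↥(parabolicHoms O (GammaH θ) O))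
  (htw : ∀ (l : PrimesOff (↑S : Set ℕ)) (v : ↥(parabolicHoms O (GammaH θ) O)),
    ((tw (formsGenS N' (↑S : Set ℕ) l) v : ↥(parabolicHoms O (GammaH θ) O)) :
        Additive (GammaH θ) →+ O)
      = diaH θ O (dℓ l) (GamH.TH θ O (not_dvd_level (↑S : Set ℕ) (hS_of_hNS S hNS) hNN' l)
          (v : Additive (GammaH θ) →+ O)))

include hinj hsq hnd hψ hν hc htw in
/-- **(ANN)** in the spelling of `ShiftSub.exists_hker` (`D := KumLevelHecke.levelData p N' hpS hNS`,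
`D.Λ = Lam N'`): every `t₀ ∈ O ⊗ heckeAlgebra N' 2 S` killing `O ⊗ Λ'` kills the classes of `MQ`. -/
theorem ann {G : Type*} [Group G] {emb : SL(2, ℤ) →* G} {Γ₂ Γ₃ : Subgroup SL(2, ℤ)}
    (S₁ : CosetSys emb (Gamma0 N') Γ₂) (S₂ : CosetSys emb (Gamma0 N') Γ₃)
    (Λ' : AddSubgroup (KumLevelHecke.levelData p N' hpS hNS).Λ)
    (hΛ : ∀ Φ : Lam N', S₁.op ℤ (Φ : Additive (Gamma0 N') →+ ℤ) = 0 →
      S₂.op ℤ (Φ : Additive (Gamma0 N') →+ ℤ) = 0 → Φ ∈ Λ')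
    (MQ : Set ↥(parabolicHoms O (GammaH θ) O))
    (hcores : ∀ v ∈ MQ, ∀ ε : Δ →* Kˣ,
      S₁.op K (RChainComp θ hθ Lε hadm hlev rep' hrep' ε v) = 0 ∧
      S₂.op K (RChainComp θ hθ Lε hadm hlev rep' hrep' ε v) = 0)
    (t₀ : O ⊗[ℤ] ↥(heckeAlgebra N' 2 (↑S : Set ℕ)))
    (ht₀ : ∀ (a : O), ∀ Φ ∈ Λ',
      (KumLevelHecke.levelData p N' hpS hNS).heckeTensor O t₀ (a ⊗ₜ[ℤ] Φ) = 0) :
    ∀ v ∈ MQ, twO O tw t₀ v = 0 :=
  ann_gen θ hθ (↑S : Set ℕ) (hS_of_hNS S hNS) hNN' hinj Lε dℓ hadm hlev rep' hrep' hsq hnd hψ hν hc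
    tw htw S₁ S₂ Λ' hΛ MQ hcores t₀ (fun Φ hΦ => ht₀ 1 Φ hΦ)

end LevelData

end GB.B10.L.Ann

end

end Fermat.Agent.GE8.P3B
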