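/-
GATE-B / GB-PNEW, leaf (ANN), consumer forms (helper44): **(ANN) for the `p`-new lattice
`ThetaNew.LamNew hpN₀ ≤ Lam (N₀ p)`** (helper32) **and for any module intertwined into the parabolic
classes.**

* `twO_intertwine` / `twO_eq_zero_of_intertwine` : ABSTRACT glue.  `ι : M →ₗ[O] V` with
  `ι (tw₁ t m) = tw t (ι m)` intertwines the `O`-linear extensions `twO O tw₁`, `twO O tw`; if `ι` is
  injective, `twO O tw t₀ (ι m) = 0 ⟹ twO O tw₁ t₀ m = 0`  (restriction of `tw` to a stable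
  submodule, transport along an isomorphism, … ).
* `ann_lamNew` : `Ann.ann` at the level `N₀ * p`, `Λ' := LamNew hpN₀`, `S₁ S₂ :=` the two transfers
  `cores`, `coresD` of `GM/B/Main` (so `hcores` is stated with `cores K hpN₀`, `coresD K hpN₀`).
* `hAnn_lamNew` : the module-level (ANN) binder of `AnnChi.hann_of_twO` /
  `GalPkgSOImg.exists_galRep_TQ_strict` / `GalPkgSOImg.hAnn_prodTw`, VERBATIM, for ANY `O`-module `M`
  with a ring hom `tw₁` and an injective intertwiner `ι : M →ₗ[O] Hom_par(Γ_H, O)`; only binder left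
  = `hcores` on the classes `ι m` (leaf (HC)).
-/
import Fermat.Agent.GE8.P3B.GB.B10.L.Ann
import Fermat.Agent.GB.B10.L.ThetaNew
import Fermat.Agent.GE8.P3B.StepGen
import Fermat.Agent.GE8.P3B.Ok3W

/- TWIN (helper6 B4 generator; conventions of helper24 / helper86) of `Fermat.Agent.GB.B10.L.AnnNew` with `p ≠ 3` relaxed to `Ok3A Sy 𝔪 p` / `Ok3W p W` (RISK-5 fix (B), step B4); everything below lives in the wrapper namespace `Fermat.Agent.GE8.P3B`. -/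
set_option linter.dupNamespace false
open Fermat Fermat.Agent Fermat.Agent.GB Fermat.Agent.GB.B10 Fermat.Agent.GB.B10.L Fermat.Agent.GB.B10.L.ThetaNew Fermat.Agent.GB.B3 Fermat.Agent.GB.B3.EisGamma0 Fermat.Agent.GB.B3.GamH Fermat.Agent.GB.B4 Fermat.Agent.GB.B4.Datum Fermat.Agent.GB.B4.Datum.ImageRing Fermat.Agent.GB.B4.Twist Fermat.Agent.GB.B4.Twist.Asm Fermat.Agent.GB.B4.Twist.Chain Fermat.Agent.GB.B4.Twist.ChainD Fermat.Agent.GB.B4.Twist.Coeff Fermat.Agent.GJ Fermat.Agent.GJ.J2 Fermat.Agent.GJ.J2.Lat Fermat.Agent.GJ.J2.LatAct Fermat.Agent.GJ.J2.ZStruct Fermat.Agent.GJ.Tate Fermat.Agent.GJ.Tate.Lim Fermat.Agent.GM Fermat.Agent.GM.B Fermat.Agent.S16_helper49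

namespace Fermat.Agent.GE8.P3B

set_option autoImplicit false
set_option linter.unusedSectionVars false

noncomputable section

open scoped MatrixGroups TensorProduct
open CongruenceSubgroup Matrix Matrix.SpecialLinearGroup ModularCurve.Period CuspForm
open S16_helper49 GM.B
open GB.B3 GB.B3.EisGamma0 GB.B3.GamH
open GJ.J2.ZStruct GJ.J2.Lat GJ.J2.LatAct
open GB.B4.Twist.Chain GB.B4.Twist.ChainD
open GB.B4.Twist.Asm GB.B4.Twist.Coeff GB.B4.Twist.TwR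
open GB.B4.Datum.ImageRing GJ.Tate GJ.Tate.Lim
open GB.B10.L.ThetaNew

namespace GB.B10.L.AnnNew

/-! ### abstract glue: intertwiners and the `O`-linear extension -/

section Glue

variable {O : Type} [CommRing O] [IsLocalRing O] {A : Type} [CommRing A]
  {M V : Type} [AddCommGroup M] [Module O M] [AddCommGroup V] [Module O V]

/-- an `O`-linear map intertwining two actions of `A` intertwines their `O`-linear extensions -/
theorem twO_intertwine (tw₁ : A →+* Module.End O M) (tw : A →+* Module.End O V) (ι : M →ₗ[O] V)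
    (hι : ∀ (t : A) (m : M), ι (tw₁ t m) = tw t (ι m)) (t₀ : O ⊗[ℤ] A) (m : M) :
    ι (twO O tw₁ t₀ m) = twO O tw t₀ (ι m) := by
  induction t₀ using TensorProduct.induction_on with
  | zero => rw [map_zero, map_zero, LinearMap.zero_apply, LinearMap.zero_apply, map_zero]
  | add a b ha hb =>
    rw [map_add, map_add, LinearMap.add_apply, LinearMap.add_apply, map_add, ha, hb]
  | tmul o t =>
    rw [twO_tmul, twO_tmul, LinearMap.smul_apply, LinearMap.smul_apply, map_smul, hι]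

/-- … hence, for an injective intertwiner, vanishing can be tested after `ι` -/
theorem twO_eq_zero_of_intertwine (tw₁ : A →+* Module.End O M) (tw : A →+* Module.End O V)
    (ι : M →ₗ[O] V) (hιinj : Function.Injective ι)
    (hι : ∀ (t : A) (m : M), ι (tw₁ t m) = tw t (ι m)) (t₀ : O ⊗[ℤ] A) (m : M)
    (h0 : twO O tw t₀ (ι m) = 0) : twO O tw₁ t₀ m = 0 := by
  apply hιinj
  rw [twO_intertwine tw₁ tw ι hι, h0, map_zero]

end Glue

/-! ### (ANN) for the `p`-new lattice -/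

section New

/-- local instance (Prop-valued class) -/
local instance factPrimeOff9 {S : Set ℕ} (l : PrimesOff S) : Fact (l.1 : ℕ).Prime := ⟨l.1.2⟩

variable {N N₀ p : ℕ} [NeZero N] [NeZero N₀] [Fact p.Prime] [NeZero (N₀ * p)]
  {Δ : Type} [CommGroup Δ] [Fintype Δ]
  (θ : (ZMod N)ˣ →* Δ) (hθ : Function.Surjective θ)
  (S : Finset ℕ) (hpS : p ∈ S)
  (hNS : ∀ q : ℕ, q.Prime → q ∣ N₀ * p → q ∈ S) (hNN' : N ∣ N₀ * p)
  {O : Type} [CommRing O] [IsLocalRing O] {K : Type} [Field K] [CharZero K] [Algebra O K]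
  (hinj : Function.Injective (algebraMap O K))
  [Fintype (Δ →* Kˣ)] [HasEnoughRootsOfUnity K (Monoid.exponent Δ)]

variable (Lε : (Δ →* Kˣ) → List (TwDatum K Δ)) (dℓ : PrimesOff (↑S : Set ℕ) → Gamma0 N)
  (hadm : ∀ ε, Adm N θ (Lε ε)) (hlev : ∀ ε, chainLevel N (Lε ε) = N₀ * p)
  (rep' : ∀ ε, Δ → Gamma0 (chainLevel N (Lε ε)))
  (hrep' : ∀ ε δ, chi (chainθ N θ (Lε ε)) (rep' ε δ) = δ)
  (hsq : ∀ ε, ∀ d ∈ Lε ε, ¬ d.r ^ 2 ∣ N)
  (hnd : ∀ ε, (Lε ε).Pairwise (fun d e => d.r ≠ e.r))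
  (hψ : ∀ ε, ∀ d ∈ Lε ε, (∀ v : (ZMod d.r)ˣ, d.ψ (v : ZMod d.r) = 1) ∨
    ∃ v : (ZMod d.r)ˣ, d.ψ (v : ZMod d.r) ^ 2 ≠ 1)
  (hν : ∀ (ε : Δ →* Kˣ) (δ : Δ), ((Lε ε).map (fun d => d.ν)).prod δ = ε δ)
  (hc : ∀ (ε : Δ →* Kˣ) (l : PrimesOff (↑S : Set ℕ)),
    ((ε (chi θ (dℓ l)) : Kˣ) : K) * chainPsi (Lε ε) (l.1 : ℕ) = 1)
  (tw : ↥(heckeAlgebra (N₀ * p) 2 (↑S : Set ℕ)) →+*
    Module.End O ↥(parabolicHoms O (GammaH θ) O))
  (htw : ∀ (l : PrimesOff (↑S : Set ℕ)) (v : ↥(parabolicHoms O (GammaH θ) O)),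
    ((tw (formsGenS (N₀ * p) (↑S : Set ℕ) l) v : ↥(parabolicHoms O (GammaH θ) O)) :
        Additive (GammaH θ) →+ O)
      = diaH θ O (dℓ l) (GamH.TH θ O
          (not_dvd_level (↑S : Set ℕ) (Ann.hS_of_hNS S hNS) hNN' l)
          (v : Additive (GammaH θ) →+ O)))

include hinj hsq hnd hψ hν hc htw in
/-- **(ANN) for `Λ' := LamNew hpN₀`**: every `t₀ ∈ O ⊗ heckeAlgebra (N₀ p) 2 S` killing
`O ⊗ LamNew` kills the classes of `MQ`, provided the two transfers `cores`, `coresD` to level `N₀`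
kill all the `RChain`-components of the classes of `MQ` (leaf (HC)). -/
theorem ann_lamNew (hpN₀ : ¬ p ∣ N₀)
    (MQ : Set ↥(parabolicHoms O (GammaH θ) O))
    (hcores : ∀ v ∈ MQ, ∀ ε : Δ →* Kˣ,
      cores K hpN₀ (RChainComp θ hθ Lε hadm hlev rep' hrep' ε v) = 0 ∧
      coresD K hpN₀ (RChainComp θ hθ Lε hadm hlev rep' hrep' ε v) = 0)
    (t₀ : O ⊗[ℤ] ↥(heckeAlgebra (N₀ * p) 2 (↑S : Set ℕ)))
    (ht₀ : ∀ (a : O),
      ∀ Φ ∈ (LamNew hpN₀ : AddSubgroup (KumLevelHecke.levelData p (N₀ * p) hpS hNS).Λ),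
      (KumLevelHecke.levelData p (N₀ * p) hpS hNS).heckeTensor O t₀ (a ⊗ₜ[ℤ] Φ) = 0) :
    ∀ v ∈ MQ, twO O tw t₀ v = 0 :=
  Ann.ann θ hθ S hpS hNS hNN' hinj Lε dℓ hadm hlev rep' hrep' hsq hnd hψ hν hc tw htw
    (coresSys' hpN₀) (coresDSys' hpN₀) (LamNew hpN₀) (fun _ h1 h2 => ⟨h1, h2⟩) MQ hcores t₀ ht₀

include hinj hsq hnd hψ hν hc htw in
/-- **the module-level (ANN) binder** of `AnnChi.hann_of_twO` / `GalPkgSOImg.exists_galRep_TQ_strict`
for any `O`-module `M` with an action `tw₁` of the Hecke algebra and an injective intertwiner `ι`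
into the parabolic classes. -/
theorem hAnn_lamNew (hpN₀ : ¬ p ∣ N₀)
    {M : Type} [AddCommGroup M] [Module O M]
    (tw₁ : ↥(heckeAlgebra (N₀ * p) 2 (↑S : Set ℕ)) →+* Module.End O M)
    (ι : M →ₗ[O] ↥(parabolicHoms O (GammaH θ) O)) (hιinj : Function.Injective ι)
    (hι : ∀ (t : ↥(heckeAlgebra (N₀ * p) 2 (↑S : Set ℕ))) (m : M), ι (tw₁ t m) = tw t (ι m))
    (hcores : ∀ (m : M) (ε : Δ →* Kˣ),
      cores K hpN₀ (RChainComp θ hθ Lε hadm hlev rep' hrep' ε (ι m)) = 0 ∧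
      coresD K hpN₀ (RChainComp θ hθ Lε hadm hlev rep' hrep' ε (ι m)) = 0) :
    ∀ t₀ : O ⊗[ℤ] ↥(heckeAlgebra (N₀ * p) 2 (↑S : Set ℕ)),
      (∀ (a : O),
        ∀ x ∈ (LamNew hpN₀ : AddSubgroup (KumLevelHecke.levelData p (N₀ * p) hpS hNS).Λ),
        (KumLevelHecke.levelData p (N₀ * p) hpS hNS).heckeTensor O t₀ (a ⊗ₜ[ℤ] x) = 0) →
      ∀ m : M, twO O tw₁ t₀ m = 0 := by
  intro t₀ ht₀ m
  refine twO_eq_zero_of_intertwine tw₁ tw ι hιinj hι t₀ m ?_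
  exact ann_lamNew θ hθ S hpS hNS hNN' hinj Lε dℓ hadm hlev rep' hrep' hsq hnd hψ hν hc tw htw
    hpN₀ (Set.range ι) (fun v hv ε => by
      obtain ⟨m', rfl⟩ := hv
      exact hcores m' ε) t₀ ht₀ (ι m) ⟨m, rfl⟩

end New

end GB.B10.L.AnnNew

end

end Fermat.Agent.GE8.P3B
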