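/-
GATE-B / GB-PNEW, leaf (ANN), the last wire (helper44): **the module-level (ANN) at the named objects
of B3** (`Plug.bigLevel`, `Plug.bigReal`, `Plug.tw`), for the `p`-new branch (`q := p`).

* `hAnn_quotTw`, `hAnn_of_fmk`, `hAnn_big` : ABSTRACT descent (helper74's `TQCompat` frame): (ANN) for
  an action `twP` on the big module `B.M` passes to every quotient `FamCoinv (frD B) c'` (`quotTw`, or
  any action given by the `fmk` formula) and to `prodTw O tw1 twChi` on `M¹_Q × M^χ_Q`.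
* `hcores_of_tower_eq` : helper15's `HCores.hcores_of_tower` for ANY character `θ` of `(ℤ/N q)ˣ` with
  `θ = thQ (Theta (Δs p e) H₀.psi j) q` (so that the consumer, who holds `Theta (Δs p e) H.psi j` for
  the prime data `H` at level `N q`, never sees `thQ`: `LocTransport.Theta_eq_infl`).
* `hAnn_twP_new` : (ANN) for ANY `twP` on `(Plug.bigLevel Sy 𝔪 H h j).M` with the `ι`-characterisation
  of helper74's `TwRestrictPlug.exists_twP` relative to a twist homomorphism `tw` with the generator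
  formula (first conjunct of `TwInst.exists_tw_primeData`); the chain binders of `Ann.ann` are
  discharged inside (`TwR.primeData_hyps`), `hcores` by `hcores_of_tower_eq`.
  ONLY binder left: `hbase` (`Hom(Γ₀(Nl), O)_𝔪 = 0`, `Nl = ` the level without `p`).
* `hAnn_plug_new` : the same for `prodTw O tw1 twChi` on
  `(Plug.tw Sy 𝔪 H h s k c hc hc1).L1.M × (Plug.tw …).Lχ.M` — the `hAnn` binder of
  `GalPkgSOImg.exists_galRep_TQ_strict` VERBATIM.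
-/
import Fermat.Agent.GE8.P3B.GB.B10.L.AnnNew
import Fermat.Agent.GE8.P3B.GB.B10.L2.HCores
import Fermat.Agent.GB.B4.Datum.TQCompat
import Fermat.Agent.GE8.P3B.GB.B3.Plug
import Fermat.Agent.GE8.P3B.GB.B3.SeamQ
import Fermat.Agent.GE8.P3B.StepGen
import Fermat.Agent.GE8.P3B.Ok3W

/- TWIN (helper6 B4 generator; conventions of helper24 / helper86) of `Fermat.Agent.GB.B10.L.AnnPlug` with `p ≠ 3` relaxed to `Ok3A Sy 𝔪 p` / `Ok3W p W` (RISK-5 fix (B), step B4); everything below lives in the wrapper namespace `Fermat.Agent.GE8.P3B`. -/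
set_option linter.dupNamespace false
open Fermat Fermat.Agent Fermat.Agent.GB Fermat.Agent.GB.B10 Fermat.Agent.GB.B10.L Fermat.Agent.GB.B10.L.ThetaNew Fermat.Agent.GB.B3 Fermat.Agent.GB.B3.ChiLevelMulti Fermat.Agent.GB.B3.EisGamma0 Fermat.Agent.GB.B3.GamH Fermat.Agent.GB.B3.HeckeActH Fermat.Agent.GB.B3.RealLevel Fermat.Agent.GB.B3.TWChars Fermat.Agent.GB.B3.TWLevel Fermat.Agent.GB.B4 Fermat.Agent.GB.B4.Datum Fermat.Agent.GB.B4.Datum.ImageRing Fermat.Agent.GB.B4.Datum.TQCompat Fermat.Agent.GB.B4.Datum.TQFields Fermat.Agent.GB.B4.Twist Fermat.Agent.GB.B4.Twist.Asm Fermat.Agent.GB.B4.Twist.Chain Fermat.Agent.GB.B4.Twist.ChainD Fermat.Agent.GB.B4.Twist.Coeff Fermat.Agent.GB.B4.Twist.DPlug Fermat.Agent.GB.B7 Fermat.Agent.GB.B7.UqSq Fermat.Agent.GJ Fermat.Agent.GJ.J2 Fermat.Agent.GJ.J2.Lat Fermat.Agent.GJ.J2.LatAct Fermat.Agent.GJ.J2.ZStruct Fermat.Agent.GJ.Tate Fermat.Agent.GJ.Tate.Lim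 Fermat.Agent.GM Fermat.Agent.GM.B Fermat.Agent.S16_helper49

namespace Fermat.Agent.GE8.P3B

set_option autoImplicit false
set_option linter.unusedSectionVars false
set_option linter.style.haveILetI false

noncomputable section

open scoped MatrixGroups TensorProduct
open CongruenceSubgroup Matrix Matrix.SpecialLinearGroup ModularCurve.Period CuspForm
open S16_helper49 GM.B
open GB.B3 GB.B3.EisGamma0 GB.B3.GamH
open GJ.J2.ZStruct GJ.J2.Lat GJ.J2.LatAct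
open GB.B4.Twist GB.B4.Twist.Chain GB.B4.Twist.ChainD
open GB.B4.Twist.Asm GB.B4.Twist.Coeff GB.B4.Twist.TwR
open GB.B4.Twist.DPlug
open GB.B4.Datum.ImageRing GJ.Tate GJ.Tate.Lim
open GB.B10.L.ThetaNew
open GB.B3.TWLevel GB.B3.RealLevel
  GB.B3.HeckeActH GB.B3.TWChars GB.B3.FinalTW
  GB.B3.Tower GB.B3.StepInst GB.B3.LocTransport
  GB.B3.ChiLevelMulti GB.B3.Final
open GB.B7.UqSq
open GB.B4.Datum.TQFields GB.B4.Datum.TQCompat

namespace GB.B10.L.AnnPlug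

/-! ### abstract descent to the quotients of the big level -/

section Quot

variable {O : Type} [CommRing O] [IsLocalRing O] {𝕋 : Type} [CommRing 𝕋] [Algebra O 𝕋]
  {M0 : Type} [AddCommGroup M0] [Module O M0] {act0 : 𝕋 →ₐ[O] Module.End O M0}
  {s k : ℕ} {N : Fin (s + k) → ℕ} (B : FreeLevel O 𝕋 M0 act0 (s + k) N)
  {A : Type} [CommRing A] (twP : A →+* Module.End O B.M)
  (hcomm : ∀ t i, twP t * B.D i = B.D i * twP t)
  (Kills : O ⊗[ℤ] A → Prop)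
  (hAnn : ∀ t₀ : O ⊗[ℤ] A, Kills t₀ → ∀ x : B.M, twO O twP t₀ x = 0)

include hAnn in
/-- (ANN) passes from the big module to the quotient, for any action given by the `fmk` formula -/
theorem hAnn_of_fmk (c' : Fin s → O) (tw₁ : A →+* Module.End O (FamCoinv (frD B) c'))
    (hfmk : ∀ (t : A) (x : B.M), tw₁ t (fmk (frD B) c' x) = fmk (frD B) c' (twP t x)) :
    ∀ t₀ : O ⊗[ℤ] A, Kills t₀ → ∀ m : FamCoinv (frD B) c', twO O tw₁ t₀ m = 0 := by
  intro t₀ ht₀ m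
  have hsurj := fmk_surjective (frD B) c' m
  refine Exists.elim hsurj fun x hx => ?_
  have h1 := AnnNew.twO_intertwine twP tw₁ (famRange (frD B) c').mkQ
    (fun t x => (hfmk t x).symm) t₀ x
  rw [hAnn t₀ ht₀ x, map_zero] at h1
  rw [← hx]
  exact h1.symm

include hAnn in
/-- (ANN) passes from the big module to `quotTw` -/
theorem hAnn_quotTw (c' : Fin s → O) :
    ∀ t₀ : O ⊗[ℤ] A, Kills t₀ →
      ∀ m : FamCoinv (frD B) c', twO O (quotTw B twP hcomm c') t₀ m = 0 :=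
  hAnn_of_fmk B twP Kills hAnn c' (quotTw B twP hcomm c') (fun _ _ => rfl)

variable (hN : ∀ i, 0 < N i) (ϖ : O) (c : Fin s → O)
  (hc : ∀ v, c v ^ N (Fin.castAdd k v) = 1) (hc1 : ∀ v, (1 : O) - c v ∈ Ideal.span {ϖ})

include hAnn in
/-- (ANN) for two actions given by the `fmk` formulas ⟹ (ANN) for their product on
`M¹_Q × M^χ_Q` -/
theorem hAnn_prod_of_fmk
    (tw₁ : A →+* Module.End O (twLevelDataMultiSelf B hN ϖ c hc hc1).L1.M)
    (twχ : A →+* Module.End O (twLevelDataMultiSelf B hN ϖ c hc hc1).Lχ.M)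
    (hfmk₁ : ∀ (t : A) (x : B.M),
      tw₁ t (fmk (frD B) (fun _ => 1) x) = fmk (frD B) (fun _ => 1) (twP t x))
    (hfmkχ : ∀ (t : A) (x : B.M), twχ t (fmk (frD B) c x) = fmk (frD B) c (twP t x)) :
    ∀ t₀ : O ⊗[ℤ] A, Kills t₀ →
      ∀ m : (twLevelDataMultiSelf B hN ϖ c hc hc1).L1.M ×
          (twLevelDataMultiSelf B hN ϖ c hc hc1).Lχ.M,
        twO O (prodTw O tw₁ twχ) t₀ m = 0 := by
  intro t₀ ht₀ m
  rw [twO_prodTw_apply]
  exact Prod.mk_eq_zero.mpr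
    ⟨hAnn_of_fmk B twP Kills hAnn (fun _ => 1) tw₁ hfmk₁ t₀ ht₀ m.1,
      hAnn_of_fmk B twP Kills hAnn c twχ hfmkχ t₀ ht₀ m.2⟩

include hAnn in
/-- **(ANN) for `prodTw O tw1 twChi`** on `M¹_Q × M^χ_Q` from (ANN) on the big module -/
theorem hAnn_big :
    ∀ t₀ : O ⊗[ℤ] A, Kills t₀ →
      ∀ m : (twLevelDataMultiSelf B hN ϖ c hc hc1).L1.M ×
          (twLevelDataMultiSelf B hN ϖ c hc hc1).Lχ.M,
        twO O (prodTw O (tw1 B twP hcomm hN ϖ c hc hc1) (twChi B twP hcomm hN ϖ c hc hc1))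
          t₀ m = 0 :=
  hAnn_prod_of_fmk B twP Kills hAnn hN ϖ c hc hc1 _ _ (fun _ _ => rfl) (fun _ _ => rfl)

end Quot

/-! ### (HC) over the tower, for a character propositionally equal to the inflated one -/

section Transport

variable {N q p N'' : ℕ} [NeZero N] [NeZero (N * q)] [Fact q.Prime] [hpF : Fact p.Prime]
  {Kk : ℕ} {r e N' : ℕ → ℕ}
variable (Sy : Symbols (N * q)) (hrN : ∀ j, Sy.r j ∣ N) (hqN : ¬ q ∣ N)
variable {O : Type} [CommRing O] [IsDomain O] [IsPrincipalIdealRing O] [IsLocalRing O]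
  [IsAdicComplete (IsLocalRing.maximalIdeal O) O] [Module.IsTorsionFree ℤ O]
variable (𝔪 : Ideal (Sy.𝕋 O)) [𝔪.IsMaximal]
variable (H₀ : PrimeData N p Kk r e N') {ϖ : O} {s0 : Sy.ι₁}
  (h₀ : Plug.Hyp (restrict Sy hrN) 𝔪 p ϖ s0)
variable {K : Type*} [Field K] [Algebra O K]

include h₀ hqN in
/-- **(HC) over the tower**, for any `θ` equal to the inflated character -/
theorem hcores_of_tower_eq
    (hbase : ∀ y : Additive (Gamma0 N) →+ O,
      IsLoc (HeckeActH.act0 (restrict Sy hrN) O) 𝔪 y → y = 0) (j : ℕ)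
    (θ : (ZMod (N * q))ˣ →* (∀ i : Fin j, Δs p e i))
    (hθeq : θ = thQ (Theta (Δs p e) H₀.psi j) q)
    (hθ : Function.Surjective θ)
    (L : List (TwDatum K (∀ i : Fin j, Δs p e i)))
    (h' : Adm (N * q) θ L) (hqN'' : ¬ q ∣ N'')
    (rep' : (∀ i : Fin j, Δs p e i) → Gamma0 (chainLevel (N * q) L))
    (hrep' : ∀ δ, chi (chainθ (N * q) θ L) (rep' δ) = δ)
    (hlev : chainLevel (N * q) L = N'' * q) (ε : (∀ i : Fin j, Δs p e i) →* Kˣ)
    {v : Additive (GamH.GammaH θ) →+ O} (hv : IsLoc (actH Sy O θ) 𝔪 v) :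
    cores K hqN'' (castHom hlev K (chainD (N * q) θ L h' rep' hrep'
        (DiaRep.comp θ hθ ε (extK (K := K) (GammaH θ) v)))) = 0 ∧
      coresD K hqN'' (castHom hlev K (chainD (N * q) θ L h' rep' hrep'
        (DiaRep.comp θ hθ ε (extK (K := K) (GammaH θ) v)))) = 0 := by
  subst hθeq
  exact GB.B10.L2.HCores.hcores_of_tower Sy hrN hqN 𝔪 H₀ h₀ hbase j hθ L h' hqN''
    rep' hrep' hlev ε hv

end Transport

/-! ### (ANN) at the big level of B3 -/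

section Plug

/-- local instance (Prop-valued class) -/
local instance factPrimeOff10 {S : Set ℕ} (l : PrimesOff S) : Fact (l.1 : ℕ).Prime := ⟨l.1.2⟩

variable {Nl p : ℕ} [NeZero Nl] [hpF : Fact p.Prime] [NeZero (Nl * p)] {Kk : ℕ}
  {r e N' N'₀ : ℕ → ℕ}
variable (Sy : Symbols (Nl * p)) (hrN : ∀ j, Sy.r j ∣ Nl) (hpNl : ¬ p ∣ Nl)
variable {O : Type} [CommRing O] [IsDomain O] [IsPrincipalIdealRing O] [IsLocalRing O]
  [IsAdicComplete (IsLocalRing.maximalIdeal O) O] [Module.IsTorsionFree ℤ O] [CharZero O]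
variable (𝔪 : Ideal (Sy.𝕋 O)) [𝔪.IsMaximal]
variable (H : PrimeData (Nl * p) p Kk r e N') (H₀ : PrimeData Nl p Kk r e N'₀)
  {ϖ : O} {s0 : Sy.ι₁} (h : Plug.Hyp Sy 𝔪 p ϖ s0)
variable (hbase : ∀ y : Additive (Gamma0 Nl) →+ O,
    IsLoc (HeckeActH.act0 (restrict Sy hrN) O) 𝔪 y → y = 0)
variable (j : ℕ) (hj : j ≤ Kk) (hp2 : p ≠ 2)
  {N₀ : ℕ} [NeZero N₀] [NeZero (N₀ * p)] (hN₀ : N₀ * p = Nl * p * ∏ i : Fin j, r i)
  (hpN₀ : ¬ p ∣ N₀)
  (S : Finset ℕ) (hpS : p ∈ S) (hNS : ∀ q : ℕ, q.Prime → q ∣ N₀ * p → q ∈ S)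
  (dℓ : PrimesOff (↑S : Set ℕ) → Gamma0 (Nl * p))
  (hdℓ : ∀ (l : PrimesOff (↑S : Set ℕ)) (u : (ZMod (Nl * p))ˣ),
    (u : ZMod (Nl * p)) = ((l.1 : ℕ) : ZMod (Nl * p)) →
    chi (Theta (Δs p e) H.psi j) (dℓ l) ^ 2 * Theta (Δs p e) H.psi j u = 1)
  (tw : ↥(heckeAlgebra (N₀ * p) 2 (↑S : Set ℕ)) →+*
    Module.End O ↥(parabolicHoms O (GammaH (Theta (Δs p e) H.psi j)) O))
  (htw : ∀ (l : PrimesOff (↑S : Set ℕ))
      (v : ↥(parabolicHoms O (GammaH (Theta (Δs p e) H.psi j)) O)),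
    ((tw (formsGenS (N₀ * p) (↑S : Set ℕ) l) v :
        ↥(parabolicHoms O (GammaH (Theta (Δs p e) H.psi j)) O)) :
        Additive (GammaH (Theta (Δs p e) H.psi j)) →+ O)
      = diaH (Theta (Δs p e) H.psi j) O (dℓ l) (GamH.TH (Theta (Δs p e) H.psi j) O
          (not_dvd_level (↑S : Set ℕ) (Ann.hS_of_hNS S hNS) (Dvd.intro _ hN₀.symm) l)
          (v : Additive (GammaH (Theta (Δs p e) H.psi j)) →+ O)))
  (hpar : ∀ x : (Plug.bigLevel Sy 𝔪 H h j).M,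
    (Plug.bigReal Sy 𝔪 H h j).ι x ∈ parabolicHoms O (GammaH (Theta (Δs p e) H.psi j)) O)
  (twP : ↥(heckeAlgebra (N₀ * p) 2 (↑S : Set ℕ)) →+*
    Module.End O (Plug.bigLevel Sy 𝔪 H h j).M)
  (hιP : ∀ (t : ↥(heckeAlgebra (N₀ * p) 2 (↑S : Set ℕ))) (m : (Plug.bigLevel Sy 𝔪 H h j).M),
    (Plug.bigReal Sy 𝔪 H h j).ι (twP t m) =
      ((tw t ⟨(Plug.bigReal Sy 𝔪 H h j).ι m, hpar m⟩ :
        ↥(parabolicHoms O (GammaH (Theta (Δs p e) H.psi j)) O)) :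
        Additive (GammaH (Theta (Δs p e) H.psi j)) →+ O))

include H₀ hpNl hbase hj hp2 hdℓ htw hιP in
/-- **(ANN) on the big level `P_Q` of B3**, `p`-new branch: every `t₀` killing `O ⊗ LamNew` kills
`(Plug.bigLevel Sy 𝔪 H h j).M` through `twP`. -/
theorem hAnn_twP_new :
    ∀ t₀ : O ⊗[ℤ] ↥(heckeAlgebra (N₀ * p) 2 (↑S : Set ℕ)),
      (∀ (a : O),
        ∀ x ∈ (LamNew hpN₀ : AddSubgroup (KumLevelHecke.levelData p (N₀ * p) hpS hNS).Λ),
        (KumLevelHecke.levelData p (N₀ * p) hpS hNS).heckeTensor O t₀ (a ⊗ₜ[ℤ] x) = 0) →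
      ∀ x : (Plug.bigLevel Sy 𝔪 H h j).M, twO O twP t₀ x = 0 := by
  classical
  letI : Fintype ((∀ i : Fin j, Δs p e i) →* (AlgebraicClosure (FractionRing O))ˣ) :=
    Fintype.ofFinite _
  have hinj : Function.Injective (algebraMap O (AlgebraicClosure (FractionRing O))) := by
    rw [IsScalarTower.algebraMap_eq O (FractionRing O) (AlgebraicClosure (FractionRing O))]
    exact (algebraMap (FractionRing O) (AlgebraicClosure (FractionRing O))).injective.comp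
      (IsFractionRing.injective O (FractionRing O))
  have hp : p.Prime := hpF.out
  have hNN' : Nl * p ∣ N₀ * p := Dvd.intro _ hN₀.symm
  obtain ⟨hadm, hlev, hsq, hnd, hψ, hν, hc⟩ := primeData_hyps H hp hp2 j hj hN₀ (↑S : Set ℕ)
    (Ann.hS_of_hNS S hNS) dℓ hdℓ (AlgebraicClosure (FractionRing O))
  have hθ : Function.Surjective (Theta (Δs p e) H.psi j) :=
    GB.B4.Twist.TwInst.Theta_surjective H j hj
  haveI hNZ : ∀ ε, NeZero (chainLevel (Nl * p)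
      (LεPD H j hj (AlgebraicClosure (FractionRing O)) ε)) := fun ε => by
    rw [hlev ε]; infer_instance
  have hsurj : ∀ ε, Function.Surjective (chainθ (Nl * p) (Theta (Δs p e) H.psi j)
      (LεPD H j hj (AlgebraicClosure (FractionRing O)) ε)) := by
    intro ε
    rw [chainθ_eq]
    exact hθ.comp (ZMod.unitsMap_surjective _)
  choose rep' hrep' using fun ε => exists_rep (chainθ (Nl * p) (Theta (Δs p e) H.psi j)
    (LεPD H j hj (AlgebraicClosure (FractionRing O)) ε)) (hsurj ε)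
  refine AnnNew.hAnn_lamNew (Theta (Δs p e) H.psi j) hθ S hpS hNS hNN' hinj
    (LεPD H j hj (AlgebraicClosure (FractionRing O))) dℓ hadm hlev rep' hrep' hsq hnd hψ hν hc
    tw htw hpN₀ twP
    (LinearMap.codRestrict (parabolicHoms O (GammaH (Theta (Δs p e) H.psi j)) O)
      (Plug.bigReal Sy 𝔪 H h j).ι hpar) ?_ ?_ ?_
  · intro a b hab
    exact (Plug.bigReal Sy 𝔪 H h j).inj (congrArg Subtype.val hab)
  · intro t m
    apply Subtype.ext
    exact hιP t m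
  · intro m ε
    have hv : IsLoc (actH Sy O (Theta (Δs p e) H.psi j)) 𝔪 ((Plug.bigReal Sy 𝔪 H h j).ι m) :=
      ((Plug.bigReal Sy 𝔪 H h j).range _).1 ⟨m, rfl⟩
    exact hcores_of_tower_eq Sy hrN hpNl 𝔪 H₀
      (GB.B3.SeamQ.hyp_restrict Sy hrN 𝔪 h) hbase j (Theta (Δs p e) H.psi j)
      (Theta_eq_infl H H₀ j) hθ (LεPD H j hj (AlgebraicClosure (FractionRing O)) ε) (hadm ε)
      hpN₀ (rep' ε) (hrep' ε) (hlev ε) ε hv

end Plug

/-! ### (ANN) on `M¹_Q × M^χ_Q` -/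

section PlugTW

/-- local instance (Prop-valued class) -/
local instance factPrimeOff11 {S : Set ℕ} (l : PrimesOff S) : Fact (l.1 : ℕ).Prime := ⟨l.1.2⟩

variable {Nl p : ℕ} [NeZero Nl] [hpF : Fact p.Prime] [NeZero (Nl * p)] {Kk : ℕ}
  {r e N' N'₀ : ℕ → ℕ}
variable (Sy : Symbols (Nl * p)) (hrN : ∀ j, Sy.r j ∣ Nl) (hpNl : ¬ p ∣ Nl)
variable {O : Type} [CommRing O] [IsDomain O] [IsPrincipalIdealRing O] [IsLocalRing O]
  [IsAdicComplete (IsLocalRing.maximalIdeal O) O] [Module.IsTorsionFree ℤ O] [CharZero O]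
variable (𝔪 : Ideal (Sy.𝕋 O)) [𝔪.IsMaximal]
variable (H : PrimeData (Nl * p) p Kk r e N') (H₀ : PrimeData Nl p Kk r e N'₀)
  {ϖ : O} {s0 : Sy.ι₁} (h : Plug.Hyp Sy 𝔪 p ϖ s0)
variable (hbase : ∀ y : Additive (Gamma0 Nl) →+ O,
    IsLoc (HeckeActH.act0 (restrict Sy hrN) O) 𝔪 y → y = 0)
variable (s k : ℕ) (c : Fin s → O) (hc : ∀ v : Fin s, c v ^ p ^ e (s + k - 1 - v) = 1)
  (hc1 : ∀ v, (1 : O) - c v ∈ Ideal.span {ϖ})
variable (hj : s + k ≤ Kk) (hp2 : p ≠ 2)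
  {N₀ : ℕ} [NeZero N₀] [NeZero (N₀ * p)] (hN₀ : N₀ * p = Nl * p * ∏ i : Fin (s + k), r i)
  (hpN₀ : ¬ p ∣ N₀)
  (S : Finset ℕ) (hpS : p ∈ S) (hNS : ∀ q : ℕ, q.Prime → q ∣ N₀ * p → q ∈ S)
  (dℓ : PrimesOff (↑S : Set ℕ) → Gamma0 (Nl * p))
  (hdℓ : ∀ (l : PrimesOff (↑S : Set ℕ)) (u : (ZMod (Nl * p))ˣ),
    (u : ZMod (Nl * p)) = ((l.1 : ℕ) : ZMod (Nl * p)) →
    chi (Theta (Δs p e) H.psi (s + k)) (dℓ l) ^ 2 * Theta (Δs p e) H.psi (s + k) u = 1)
  (tw : ↥(heckeAlgebra (N₀ * p) 2 (↑S : Set ℕ)) →+*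
    Module.End O ↥(parabolicHoms O (GammaH (Theta (Δs p e) H.psi (s + k))) O))
  (htw : ∀ (l : PrimesOff (↑S : Set ℕ))
      (v : ↥(parabolicHoms O (GammaH (Theta (Δs p e) H.psi (s + k))) O)),
    ((tw (formsGenS (N₀ * p) (↑S : Set ℕ) l) v :
        ↥(parabolicHoms O (GammaH (Theta (Δs p e) H.psi (s + k))) O)) :
        Additive (GammaH (Theta (Δs p e) H.psi (s + k))) →+ O)
      = diaH (Theta (Δs p e) H.psi (s + k)) O (dℓ l) (GamH.TH (Theta (Δs p e) H.psi (s + k)) O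
          (not_dvd_level (↑S : Set ℕ) (Ann.hS_of_hNS S hNS) (Dvd.intro _ hN₀.symm) l)
          (v : Additive (GammaH (Theta (Δs p e) H.psi (s + k))) →+ O)))
  (hpar : ∀ x : (Plug.bigLevel Sy 𝔪 H h (s + k)).M,
    (Plug.bigReal Sy 𝔪 H h (s + k)).ι x
      ∈ parabolicHoms O (GammaH (Theta (Δs p e) H.psi (s + k))) O)
  (twP : ↥(heckeAlgebra (N₀ * p) 2 (↑S : Set ℕ)) →+*
    Module.End O (Plug.bigLevel Sy 𝔪 H h (s + k)).M)
  (hιP : ∀ (t : ↥(heckeAlgebra (N₀ * p) 2 (↑S : Set ℕ)))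
      (m : (Plug.bigLevel Sy 𝔪 H h (s + k)).M),
    (Plug.bigReal Sy 𝔪 H h (s + k)).ι (twP t m) =
      ((tw t ⟨(Plug.bigReal Sy 𝔪 H h (s + k)).ι m, hpar m⟩ :
        ↥(parabolicHoms O (GammaH (Theta (Δs p e) H.psi (s + k))) O)) :
        Additive (GammaH (Theta (Δs p e) H.psi (s + k))) →+ O))
  (hcomm : ∀ t i, twP t * (Plug.bigLevel Sy 𝔪 H h (s + k)).D i
    = (Plug.bigLevel Sy 𝔪 H h (s + k)).D i * twP t)

include H₀ hpNl hbase hj hp2 hdℓ htw hιP in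
/-- **the module-level (ANN) on `M¹_Q × M^χ_Q`**, `p`-new branch — the binder `hAnn` of
`GalPkgSOImg.exists_galRep_TQ_strict` / `StrictQNew.exists_galRep_TQ_strict_new` for
`tw := prodTw O tw1 twChi`, `M := (Plug.tw …).L1.M × (Plug.tw …).Lχ.M`, `Λ' := LamNew hpN₀`. -/
theorem hAnn_plug_new :
    ∀ t₀ : O ⊗[ℤ] ↥(heckeAlgebra (N₀ * p) 2 (↑S : Set ℕ)),
      (∀ (a : O),
        ∀ x ∈ (LamNew hpN₀ : AddSubgroup (KumLevelHecke.levelData p (N₀ * p) hpS hNS).Λ),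
        (KumLevelHecke.levelData p (N₀ * p) hpS hNS).heckeTensor O t₀ (a ⊗ₜ[ℤ] x) = 0) →
      ∀ m : (Plug.tw Sy 𝔪 H h s k c hc hc1).L1.M × (Plug.tw Sy 𝔪 H h s k c hc hc1).Lχ.M,
        twO O (prodTw O
          (tw1 (Plug.bigLevel Sy 𝔪 H h (s + k)) twP hcomm (Nfun_pos hpF.out e (s + k)) ϖ c
            (Plug.hc_Nfun s k c hc) hc1)
          (twChi (Plug.bigLevel Sy 𝔪 H h (s + k)) twP hcomm (Nfun_pos hpF.out e (s + k)) ϖ c
            (Plug.hc_Nfun s k c hc) hc1)) t₀ m = 0 :=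
  hAnn_big (Plug.bigLevel Sy 𝔪 H h (s + k)) twP hcomm _
    (hAnn_twP_new Sy hrN hpNl 𝔪 H H₀ h hbase (s + k) hj hp2 hN₀ hpN₀ S hpS hNS dℓ hdℓ tw htw hpar
      twP hιP)
    (Nfun_pos hpF.out e (s + k)) ϖ c (Plug.hc_Nfun s k c hc) hc1

end PlugTW

end GB.B10.L.AnnPlug

end

end Fermat.Agent.GE8.P3B
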