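/-
GATE-B / GB-PNEW (ANN), call site at helper51's objects of record (helper44): **the `hAnn` binder of
`GalPkgSOImg.exists_galRep_TQ_strict` at `Q.tw1F`.**

`AnnPlugEq.hAnn_plug_new_of_eq'` instantiated at `N := Q.N = M * ∏ qv i`, `Nl := M / p * ∏ qv i`
(`p ∣ M`, `M` squarefree), `Sy := Q.Sy`, `𝔪 := Q.𝔪`, `H := Q.primeData …`, `h := Q.hyp hp3`,
`s := 1`, `k := g`, `c := fun _ => cq`: the side conditions `hN hrN hpNl hne` are discharged here.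
Open binders: `hbase` (no `𝔪`-primary class at level `Nl`), the twist data `dℓ hdℓ tw htw hpar`
(TwInst) and `twP hιP hcomm` (TwRestrictPlug.exists_twP).
-/
import Fermat.Agent.GE8.P3B.GB.B10.L.AnnPlugEq
import Fermat.Agent.GE8.P3B.GB.B9.ProviderFlat.G1One
import Fermat.Agent.GE8.P3B.StepGen
import Fermat.Agent.GE8.P3B.Ok3W

/- TWIN (helper6 B4 generator; conventions of helper24 / helper86) of `Fermat.Agent.GB.B10.L.AnnG1` with `p ≠ 3` relaxed to `Ok3A Sy 𝔪 p` / `Ok3W p W` (RISK-5 fix (B), step B4); everything below lives in the wrapper namespace `Fermat.Agent.GE8.P3B`. -/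
set_option linter.dupNamespace false
open Fermat Fermat.Agent Fermat.Agent.GB Fermat.Agent.GB.B10 Fermat.Agent.GB.B10.L Fermat.Agent.GB.B10.L.ThetaNew Fermat.Agent.GB.B3 Fermat.Agent.GB.B3.ChiLevelMulti Fermat.Agent.GB.B3.EisGamma0 Fermat.Agent.GB.B3.GamH Fermat.Agent.GB.B3.HeckeActH Fermat.Agent.GB.B3.RealLevel Fermat.Agent.GB.B3.TWChars Fermat.Agent.GB.B3.TWLevel Fermat.Agent.GB.B4 Fermat.Agent.GB.B4.Twist Fermat.Agent.GB.B4.Twist.Asm Fermat.Agent.GB.B4.Twist.TwFinal Fermat.Agent.GB.B9 Fermat.Agent.GB.B9.ProviderFlat Fermat.Agent.GB.B9.ProviderFlat.H1 Fermat.Agent.GB.Setup Fermat.Agent.GB.Setup.SetupPkg Fermat.Agent.GJ Fermat.Agent.GJ.J2 Fermat.Agent.GJ.J2.Lat Fermat.Agent.GJ.J2.ZStruct Fermat.Agent.GM Fermat.Agent.GM.B Fermat.Agent.GM.EisClass Fermat.Agent.S16_helper49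

namespace Fermat.Agent.GE8.P3B

set_option autoImplicit false
set_option linter.unusedSectionVars false
set_option linter.unusedVariables false

noncomputable section

open scoped MatrixGroups TensorProduct
open CongruenceSubgroup Matrix Matrix.SpecialLinearGroup ModularCurve.Period CuspForm
open S16_helper49 GM.B GM.EisClass
open GB.B3 GB.B3.EisGamma0 GB.B3.GamH
open GB.B4.Twist.Asm GB.B4.Twist.TwFinal GB.B4.Twist.TwInst
open GB.B3.Tower GB.B3.TWChars GB.B3.FinalTW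
open GB.B3.TWLevel GB.B3.Final
open GB.B3.HeckeActH GB.B3.StepInst
open GB.Setup.SetupPkg
open GB.B9.ProviderFlat.G1 GB.B9.ProviderFlat.H1
open GB.B10.L.AnnPlugEq GB.B10.L.AnnPlug
open GJ.J2.ZStruct GJ.J2.Lat GB.B3.LocTransport GB.B3.RealLevel
open GB.B10.L.ThetaNew GB.B3.ChiLevelMulti

namespace GB.B10.L.AnnG1

/-- local instance (Prop-valued class) -/
local instance factPrimeOff22 {S : Set ℕ} (l : PrimesOff S) : Fact (l.1 : ℕ).Prime := ⟨l.1.2⟩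

variable {p : ℕ} [hpF : Fact p.Prime] {W : WeierstrassCurve ℤ}
  {hcard₁ : Nat.card (Submodule.torsionBy ℤ
    ((W.map (Int.castRingHom ℚ)).toAffine.baseChange (AlgebraicClosure ℚ)).Point p) = p ^ 2}
  {hker : GaloisFactorsThroughFiniteLevel
    (WeierstrassCurve.Affine.Point.galoisRepModuleEnd (K := AlgebraicClosure ℚ) ℚ
      (W.map (Int.castRingHom ℚ)) p)}
  {M A : ℕ} {P : Pkg p W hcard₁ hker M A} {g n : ℕ} (Q : TWSet P g n)
  {q eq : ℕ} (hq : q.Prime) (hqM : q ∣ M) (hsq : Squarefree M) (hcong : p ^ eq ∣ q - 1)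
  (hp3 : Ok3W p W) {cq : P.O} (hcq : cq ^ p ^ eq = 1)
  (hcq1 : (1 : P.O) - cq ∈ Ideal.span {P.ϖ})
  (hpM : p ∣ M) (hqp : q ≠ p)

/-- the level below `p` -/
def Nl : ℕ := M / p * ∏ i, Q.qv i

include hpM in
theorem hN : Q.N = Nl Q * p := by
  unfold Nl TWSet.N
  rw [Nat.mul_right_comm, Nat.div_mul_cancel hpM]

theorem hrN : ∀ j, Q.Sy.r j ∣ Nl Q := fun j =>
  Dvd.dvd.mul_left (Finset.dvd_prod_of_mem _ (Finset.mem_univ (Q.iOf j))) _

include hsq hpM in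
theorem hpNl : ¬ p ∣ Nl Q := by
  unfold Nl
  intro h
  rcases (Nat.Prime.dvd_mul hpF.out).mp h with h1 | h1
  · -- p ∣ M / p contradicts squarefree
    obtain ⟨c, hc⟩ := h1
    have h2 : p * p ∣ M := by
      refine ⟨c, ?_⟩
      have := Nat.div_mul_cancel hpM
      rw [hc] at this
      rw [← this]
      ring
    exact hpF.out.one_lt.ne' (Nat.isUnit_iff.mp (hsq p h2))
  · obtain ⟨i, -, hi⟩ := (Prime.dvd_finsetProd_iff hpF.out.prime _).mp h1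
    exact (Q.good i).2.2 ((Nat.prime_dvd_prime_iff_eq hpF.out (Q.prime i)).mp hi).symm

include hqp in
theorem hne : ∀ i, i < g + 1 → rOf Q.qv q i ≠ p := by
  intro i hi
  rcases Nat.lt_succ_iff_lt_or_eq.mp hi with h | h
  · rw [rOf_lt Q.qv q h]
    exact (Q.good _).2.2
  · subst h
    rw [rOf_eq]
    exact hqp

include hpM in
theorem nl_ne_zero : Nl Q ≠ 0 := by
  intro h0
  have h := hN Q hpM
  rw [h0, zero_mul] at h
  exact Q.N_ne_zero h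

variable {N₀ : ℕ} [NeZero N₀] [NeZero (N₀ * p)]
  (hN₀ : N₀ * p = Q.N * ∏ i : Fin (1 + g), rOf Q.qv q i) (hpN₀ : ¬ p ∣ N₀)
  (S : Finset ℕ) (hpS : p ∈ S) (hNS : ∀ q' : ℕ, q'.Prime → q' ∣ N₀ * p → q' ∈ S)
  (hbase : ∀ y : Additive (Gamma0 (Nl Q)) →+ P.O,
    IsLoc (HeckeActH.act0 (restrict (castSy (hN Q hpM) Q.Sy) (hrN Q)) P.O) Q.𝔪 y → y = 0)
  (dℓ : PrimesOff (↑S : Set ℕ) → Gamma0 Q.N)
  (hdℓ : ∀ (l : PrimesOff (↑S : Set ℕ)) (u : (ZMod Q.N)ˣ),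
    (u : ZMod Q.N) = ((l.1 : ℕ) : ZMod Q.N) →
    chi (Theta (Δs p (eOf g (n + 1) eq)) (Q.primeData hq hqM hsq hcong).psi (1 + g)) (dℓ l) ^ 2
      * Theta (Δs p (eOf g (n + 1) eq)) (Q.primeData hq hqM hsq hcong).psi (1 + g) u = 1)
  (tw : ↥(heckeAlgebra (N₀ * p) 2 (↑S : Set ℕ)) →+*
    Module.End P.O ↥(parabolicHoms P.O
      (GammaH (Theta (Δs p (eOf g (n + 1) eq)) (Q.primeData hq hqM hsq hcong).psi (1 + g))) P.O))
  (htw : ∀ (l : PrimesOff (↑S : Set ℕ))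
      (v : ↥(parabolicHoms P.O
        (GammaH (Theta (Δs p (eOf g (n + 1) eq)) (Q.primeData hq hqM hsq hcong).psi (1 + g))) P.O)),
    ((tw (formsGenS (N₀ * p) (↑S : Set ℕ) l) v :
        ↥(parabolicHoms P.O
          (GammaH (Theta (Δs p (eOf g (n + 1) eq)) (Q.primeData hq hqM hsq hcong).psi (1 + g))) P.O)) :
        Additive (GammaH (Theta (Δs p (eOf g (n + 1) eq))
          (Q.primeData hq hqM hsq hcong).psi (1 + g))) →+ P.O)
      = diaH (Theta (Δs p (eOf g (n + 1) eq)) (Q.primeData hq hqM hsq hcong).psi (1 + g)) P.O (dℓ l)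
          (GamH.TH (Theta (Δs p (eOf g (n + 1) eq)) (Q.primeData hq hqM hsq hcong).psi (1 + g)) P.O
            (not_dvd_level (↑S : Set ℕ) (GB.B10.L.Ann.hS_of_hNS S hNS)
              (Dvd.intro _ hN₀.symm) l)
          (v : Additive (GammaH (Theta (Δs p (eOf g (n + 1) eq))
            (Q.primeData hq hqM hsq hcong).psi (1 + g))) →+ P.O)))
  (hpar : ∀ x : (Plug.bigLevel Q.Sy Q.𝔪 (Q.primeData hq hqM hsq hcong) (Q.hyp hp3) (1 + g)).M,
    (Plug.bigReal Q.Sy Q.𝔪 (Q.primeData hq hqM hsq hcong) (Q.hyp hp3) (1 + g)).ι x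
      ∈ parabolicHoms P.O
        (GammaH (Theta (Δs p (eOf g (n + 1) eq)) (Q.primeData hq hqM hsq hcong).psi (1 + g))) P.O)
  (twP : ↥(heckeAlgebra (N₀ * p) 2 (↑S : Set ℕ)) →+*
    Module.End P.O (Plug.bigLevel Q.Sy Q.𝔪 (Q.primeData hq hqM hsq hcong) (Q.hyp hp3) (1 + g)).M)
  (hιP : ∀ (t : ↥(heckeAlgebra (N₀ * p) 2 (↑S : Set ℕ)))
      (m : (Plug.bigLevel Q.Sy Q.𝔪 (Q.primeData hq hqM hsq hcong) (Q.hyp hp3) (1 + g)).M),
    (Plug.bigReal Q.Sy Q.𝔪 (Q.primeData hq hqM hsq hcong) (Q.hyp hp3) (1 + g)).ι (twP t m) =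
      ((tw t ⟨(Plug.bigReal Q.Sy Q.𝔪 (Q.primeData hq hqM hsq hcong) (Q.hyp hp3) (1 + g)).ι m,
          hpar m⟩ :
        ↥(parabolicHoms P.O (GammaH (Theta (Δs p (eOf g (n + 1) eq))
          (Q.primeData hq hqM hsq hcong).psi (1 + g))) P.O)) :
        Additive (GammaH (Theta (Δs p (eOf g (n + 1) eq))
          (Q.primeData hq hqM hsq hcong).psi (1 + g))) →+ P.O))
  (hcomm : ∀ t i, twP t *
      (Plug.bigLevel Q.Sy Q.𝔪 (Q.primeData hq hqM hsq hcong) (Q.hyp hp3) (1 + g)).D i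
    = (Plug.bigLevel Q.Sy Q.𝔪 (Q.primeData hq hqM hsq hcong) (Q.hyp hp3) (1 + g)).D i * twP t)

include hqp hpN₀ hbase hdℓ htw hιP in
/-- **the `hAnn` binder at helper51's objects of record `Q.tw1F`** (`p`-new branch) -/
theorem hAnn_tw1F :
    ∀ t₀ : P.O ⊗[ℤ] ↥(heckeAlgebra (N₀ * p) 2 (↑S : Set ℕ)),
      (∀ (a : P.O),
        ∀ x ∈ (LamNew hpN₀ : AddSubgroup
          (GB.B10.KumLevelHecke.levelData p (N₀ * p) hpS hNS).Λ),
        (GB.B10.KumLevelHecke.levelData p (N₀ * p) hpS hNS).heckeTensor P.O t₀ (a ⊗ₜ[ℤ] x) = 0) →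
      ∀ m : (Q.tw1F hq hqM hsq hcong hp3 hcq hcq1).L1.M × (Q.tw1F hq hqM hsq hcong hp3 hcq hcq1).Lχ.M,
        GB.B4.Datum.ImageRing.twO P.O (GB.B4.Datum.TQFields.prodTw P.O
          (GB.B4.Datum.TQCompat.tw1
            (Plug.bigLevel Q.Sy Q.𝔪 (Q.primeData hq hqM hsq hcong) (Q.hyp hp3) (1 + g)) twP hcomm
            (Nfun_pos hpF.out (eOf g (n + 1) eq) (1 + g)) P.ϖ (fun _ : Fin 1 => cq)
            (Plug.hc_Nfun 1 g (fun _ : Fin 1 => cq)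
              (TWSet.hc_one (g := g) (eOf_eq (n + 1) eq) hcq)) (fun _ => hcq1))
          (GB.B4.Datum.TQCompat.twChi
            (Plug.bigLevel Q.Sy Q.𝔪 (Q.primeData hq hqM hsq hcong) (Q.hyp hp3) (1 + g)) twP hcomm
            (Nfun_pos hpF.out (eOf g (n + 1) eq) (1 + g)) P.ϖ (fun _ : Fin 1 => cq)
            (Plug.hc_Nfun 1 g (fun _ : Fin 1 => cq)
              (TWSet.hc_one (g := g) (eOf_eq (n + 1) eq) hcq)) (fun _ => hcq1))) t₀ m = 0 :=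
  haveI : NeZero (Nl Q) := ⟨nl_ne_zero Q hpM⟩
  hAnn_plug_new_of_eq' (hN Q hpM) Q.Sy (hrN Q) (hpNl Q hsq hpM) Q.𝔪
    (Q.primeData hq hqM hsq hcong) (Q.hyp hp3) hbase 1 g (fun _ => cq)
    (TWSet.hc_one (g := g) (eOf_eq (n + 1) eq) hcq) (fun _ => hcq1) (by omega) P.hp2
    hN₀ hpN₀ S hpS hNS dℓ hdℓ tw htw hpar twP hιP hcomm (hne Q hqp)

end GB.B10.L.AnnG1

end

end Fermat.Agent.GE8.P3B
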