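/-
GATE-B / GB-PNEW (ANN) at helper51's objects of record, `hbase` DISCHARGED (helper44):

* `hbase_Nl_p` : the `𝔪_Q`-part of `Hom(Γ₀(M / p * ∏ qv), O)` vanishes when `W` is not residually
  modular of level `M / p` — helper52's `G7.TWSetG7.hbase_Nl` at `q := p` (that lemma only uses
  `q ∣ M`), in the `restrict (castSy …)` spelling of `AnnG1` (the two spellings are defeq);
* `hAnn_tw1F_of_not_resMod` : `AnnG1.hAnn_tw1F` with `hbase := hbase_Nl_p` — the `hAnn` binder of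
  `GalPkgSOImg.exists_galRep_TQ_strict` on `(Q.tw1F …).L1.M × (Q.tw1F …).Lχ.M`; binders left = the
  twist data `dℓ hdℓ tw htw hpar` (TwInst) and `twP hιP hcomm` (TwRestrictPlug.exists_twP) only.
-/
import Fermat.Agent.GE8.P3B.GB.B10.L.AnnG1
import Fermat.Agent.GE8.P3B.GB.B9.ProviderFlat.G7
import Fermat.Agent.GE8.P3B.StepGen
import Fermat.Agent.GE8.P3B.Ok3W

/- TWIN (helper6 B4 generator; conventions of helper24 / helper86) of `Fermat.Agent.GB.B10.L.AnnG1Base` with `p ≠ 3` relaxed to `Ok3A Sy 𝔪 p` / `Ok3W p W` (RISK-5 fix (B), step B4); everything below lives in the wrapper namespace `Fermat.Agent.GE8.P3B`. -/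
set_option linter.dupNamespace false
open Fermat Fermat.Agent Fermat.Agent.GB Fermat.Agent.GB.B10 Fermat.Agent.GB.B10.L Fermat.Agent.GB.B10.L.ThetaNew Fermat.Agent.GB.B3 Fermat.Agent.GB.B3.ChiLevelMulti Fermat.Agent.GB.B3.EisGamma0 Fermat.Agent.GB.B3.GamH Fermat.Agent.GB.B3.HeckeActH Fermat.Agent.GB.B3.RealLevel Fermat.Agent.GB.B3.TWChars Fermat.Agent.GB.B3.TWLevel Fermat.Agent.GB.B4 Fermat.Agent.GB.B4.Twist Fermat.Agent.GB.B4.Twist.Asm Fermat.Agent.GB.B4.Twist.TwFinal Fermat.Agent.GB.B9 Fermat.Agent.GB.B9.ProviderFlat Fermat.Agent.GB.B9.ProviderFlat.H1 Fermat.Agent.GB.Setup Fermat.Agent.GB.Setup.SetupPkg Fermat.Agent.GJ Fermat.Agent.GJ.J2 Fermat.Agent.GJ.J2.Lat Fermat.Agent.GJ.J2.ZStruct Fermat.Agent.GM Fermat.Agent.GM.B Fermat.Agent.GM.EisClass Fermat.Agent.S16_helper49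

namespace Fermat.Agent.GE8.P3B

set_option autoImplicit false
set_option linter.unusedSectionVars false
set_option linter.unusedVariables false

noncomputable section

open scoped MatrixGroups TensorProduct
open CongruenceSubgroup Matrix Matrix.SpecialLinearGroup ModularCurve.Period CuspForm
open S16_helper49 GM.B GM.EisClass
open GB.B3 GB.B3.EisGamma0 GB.B3.GamH
open GB.B4.Twist.Asm GB.B4.Twist.TwFinal GB.B4.Twist.TwInst
open GB.B3.Tower GB.B3.TWChars GB.B3.FinalTW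
open GB.B3.TWLevel GB.B3.Final
open GB.B3.HeckeActH GB.B3.StepInst
open GB.Setup.SetupPkg
open GB.B9.ProviderFlat.G1 GB.B9.ProviderFlat.H1
open GB.B10.L.AnnPlugEq GB.B10.L.AnnPlug
open GJ.J2.ZStruct GJ.J2.Lat GB.B3.LocTransport GB.B3.RealLevel
open GB.B10.L.ThetaNew GB.B3.ChiLevelMulti

open GB.B10.L.AnnG1

namespace GB.B10.L.AnnG1Base

/-- local instance (Prop-valued class) -/
local instance factPrimeOff23 {S : Set ℕ} (l : PrimesOff S) : Fact (l.1 : ℕ).Prime := ⟨l.1.2⟩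

variable {p : ℕ} [hpF : Fact p.Prime] {W : WeierstrassCurve ℤ}
  {hcard₁ : Nat.card (Submodule.torsionBy ℤ
    ((W.map (Int.castRingHom ℚ)).toAffine.baseChange (AlgebraicClosure ℚ)).Point p) = p ^ 2}
  {hker : GaloisFactorsThroughFiniteLevel
    (WeierstrassCurve.Affine.Point.galoisRepModuleEnd (K := AlgebraicClosure ℚ) ℚ
      (W.map (Int.castRingHom ℚ)) p)}
  {M A : ℕ} {P : Pkg p W hcard₁ hker M A} {g n : ℕ} (Q : TWSet P g n)
  {q eq : ℕ} (hq : q.Prime) (hqM : q ∣ M) (hsq : Squarefree M) (hcong : p ^ eq ∣ q - 1)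
  (hp3 : Ok3W p W) {cq : P.O} (hcq : cq ^ p ^ eq = 1)
  (hcq1 : (1 : P.O) - cq ∈ Ideal.span {P.ϖ})
  (hpM : p ∣ M) (hqp : q ≠ p)

include hsq in
/-- **(N3) at the level below `p`** (helper52 `G7.TWSetG7.hbase_Nl` at `q := p`) -/
theorem hbase_Nl_p (hX : ¬ W.IsResiduallyModularOfLevel p (M / p)) :
    ∀ y : Additive (Gamma0 (Nl Q)) →+ P.O,
      IsLoc (HeckeActH.act0 (restrict (castSy (hN Q hpM) Q.Sy) (hrN Q)) P.O) Q.𝔪 y → y = 0 :=
  GB.B9.ProviderFlat.G7.TWSetG7.hbase_Nl Q hpM hsq hX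

variable {N₀ : ℕ} [NeZero N₀] [NeZero (N₀ * p)]
  (hN₀ : N₀ * p = Q.N * ∏ i : Fin (1 + g), rOf Q.qv q i) (hpN₀ : ¬ p ∣ N₀)
  (S : Finset ℕ) (hpS : p ∈ S) (hNS : ∀ q' : ℕ, q'.Prime → q' ∣ N₀ * p → q' ∈ S)
  (hX : ¬ W.IsResiduallyModularOfLevel p (M / p))
  (dℓ : PrimesOff (↑S : Set ℕ) → Gamma0 Q.N)
  (hdℓ : ∀ (l : PrimesOff (↑S : Set ℕ)) (u : (ZMod Q.N)ˣ),
    (u : ZMod Q.N) = ((l.1 : ℕ) : ZMod Q.N) →
    chi (Theta (Δs p (eOf g (n + 1) eq)) (Q.primeData hq hqM hsq hcong).psi (1 + g)) (dℓ l) ^ 2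
      * Theta (Δs p (eOf g (n + 1) eq)) (Q.primeData hq hqM hsq hcong).psi (1 + g) u = 1)
  (tw : ↥(heckeAlgebra (N₀ * p) 2 (↑S : Set ℕ)) →+*
    Module.End P.O ↥(parabolicHoms P.O
      (GammaH (Theta (Δs p (eOf g (n + 1) eq)) (Q.primeData hq hqM hsq hcong).psi (1 + g))) P.O))
  (htw : ∀ (l : PrimesOff (↑S : Set ℕ))
      (v : ↥(parabolicHoms P.O
        (GammaH (Theta (Δs p (eOf g (n + 1) eq)) (Q.primeData hq hqM hsq hcong).psi (1 + g))) P.O)),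
    ((tw (formsGenS (N₀ * p) (↑S : Set ℕ) l) v :
        ↥(parabolicHoms P.O
          (GammaH (Theta (Δs p (eOf g (n + 1) eq)) (Q.primeData hq hqM hsq hcong).psi (1 + g))) P.O)) :
        Additive (GammaH (Theta (Δs p (eOf g (n + 1) eq))
          (Q.primeData hq hqM hsq hcong).psi (1 + g))) →+ P.O)
      = diaH (Theta (Δs p (eOf g (n + 1) eq)) (Q.primeData hq hqM hsq hcong).psi (1 + g)) P.O (dℓ l)
          (GamH.TH (Theta (Δs p (eOf g (n + 1) eq)) (Q.primeData hq hqM hsq hcong).psi (1 + g)) P.O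
            (not_dvd_level (↑S : Set ℕ) (GB.B10.L.Ann.hS_of_hNS S hNS)
              (Dvd.intro _ hN₀.symm) l)
          (v : Additive (GammaH (Theta (Δs p (eOf g (n + 1) eq))
            (Q.primeData hq hqM hsq hcong).psi (1 + g))) →+ P.O)))
  (hpar : ∀ x : (Plug.bigLevel Q.Sy Q.𝔪 (Q.primeData hq hqM hsq hcong) (Q.hyp hp3) (1 + g)).M,
    (Plug.bigReal Q.Sy Q.𝔪 (Q.primeData hq hqM hsq hcong) (Q.hyp hp3) (1 + g)).ι x
      ∈ parabolicHoms P.O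
        (GammaH (Theta (Δs p (eOf g (n + 1) eq)) (Q.primeData hq hqM hsq hcong).psi (1 + g))) P.O)
  (twP : ↥(heckeAlgebra (N₀ * p) 2 (↑S : Set ℕ)) →+*
    Module.End P.O (Plug.bigLevel Q.Sy Q.𝔪 (Q.primeData hq hqM hsq hcong) (Q.hyp hp3) (1 + g)).M)
  (hιP : ∀ (t : ↥(heckeAlgebra (N₀ * p) 2 (↑S : Set ℕ)))
      (m : (Plug.bigLevel Q.Sy Q.𝔪 (Q.primeData hq hqM hsq hcong) (Q.hyp hp3) (1 + g)).M),
    (Plug.bigReal Q.Sy Q.𝔪 (Q.primeData hq hqM hsq hcong) (Q.hyp hp3) (1 + g)).ι (twP t m) =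
      ((tw t ⟨(Plug.bigReal Q.Sy Q.𝔪 (Q.primeData hq hqM hsq hcong) (Q.hyp hp3) (1 + g)).ι m,
          hpar m⟩ :
        ↥(parabolicHoms P.O (GammaH (Theta (Δs p (eOf g (n + 1) eq))
          (Q.primeData hq hqM hsq hcong).psi (1 + g))) P.O)) :
        Additive (GammaH (Theta (Δs p (eOf g (n + 1) eq))
          (Q.primeData hq hqM hsq hcong).psi (1 + g))) →+ P.O))
  (hcomm : ∀ t i, twP t *
      (Plug.bigLevel Q.Sy Q.𝔪 (Q.primeData hq hqM hsq hcong) (Q.hyp hp3) (1 + g)).D i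
    = (Plug.bigLevel Q.Sy Q.𝔪 (Q.primeData hq hqM hsq hcong) (Q.hyp hp3) (1 + g)).D i * twP t)

include hpM hqp hpN₀ hX hdℓ htw hιP in
/-- **the `hAnn` binder at helper51's objects of record `Q.tw1F`** (`p`-new branch), `hbase`
discharged from `hX : ¬ W.IsResiduallyModularOfLevel p (M / p)` -/
theorem hAnn_tw1F_of_not_resMod :
    ∀ t₀ : P.O ⊗[ℤ] ↥(heckeAlgebra (N₀ * p) 2 (↑S : Set ℕ)),
      (∀ (a : P.O),
        ∀ x ∈ (LamNew hpN₀ : AddSubgroup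
          (GB.B10.KumLevelHecke.levelData p (N₀ * p) hpS hNS).Λ),
        (GB.B10.KumLevelHecke.levelData p (N₀ * p) hpS hNS).heckeTensor P.O t₀ (a ⊗ₜ[ℤ] x) = 0) →
      ∀ m : (Q.tw1F hq hqM hsq hcong hp3 hcq hcq1).L1.M × (Q.tw1F hq hqM hsq hcong hp3 hcq hcq1).Lχ.M,
        GB.B4.Datum.ImageRing.twO P.O (GB.B4.Datum.TQFields.prodTw P.O
          (GB.B4.Datum.TQCompat.tw1
            (Plug.bigLevel Q.Sy Q.𝔪 (Q.primeData hq hqM hsq hcong) (Q.hyp hp3) (1 + g)) twP hcomm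
            (Nfun_pos hpF.out (eOf g (n + 1) eq) (1 + g)) P.ϖ (fun _ : Fin 1 => cq)
            (Plug.hc_Nfun 1 g (fun _ : Fin 1 => cq)
              (TWSet.hc_one (g := g) (eOf_eq (n + 1) eq) hcq)) (fun _ => hcq1))
          (GB.B4.Datum.TQCompat.twChi
            (Plug.bigLevel Q.Sy Q.𝔪 (Q.primeData hq hqM hsq hcong) (Q.hyp hp3) (1 + g)) twP hcomm
            (Nfun_pos hpF.out (eOf g (n + 1) eq) (1 + g)) P.ϖ (fun _ : Fin 1 => cq)
            (Plug.hc_Nfun 1 g (fun _ : Fin 1 => cq)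
              (TWSet.hc_one (g := g) (eOf_eq (n + 1) eq) hcq)) (fun _ => hcq1))) t₀ m = 0 :=
  hAnn_tw1F Q hq hqM hsq hcong hp3 hcq hcq1 hpM hqp hN₀ hpN₀ S hpS hNS
    (hbase_Nl_p Q hsq hpM hX) dℓ hdℓ tw htw hpar twP hιP hcomm

end GB.B10.L.AnnG1Base

end

end Fermat.Agent.GE8.P3B
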