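/-
GATE-B / GB-PNEW (ANN) at helper11's G2 objects (helper44): **the `hAnn` binder of
`GalPkgSOImg.exists_galRep_TQ_strict` from the OUTPUT of `G2.exists_twP_hecke`.**

`G2.exists_twP_hecke` gives `twP : heckeAlgebra N'' 2 ↑S →+* End_O P_Q` characterised on the
GENERATORS only (`ι (twP (T_ℓ) x) = ⟨dℓ ℓ⟩ T_ℓ (ι x)`) and commuting with the diamonds (`hD`).  The
annihilator statements `AnnPlug(Eq).hAnn_plug_new…` want a twist `tw` on the parabolic classes with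
the full square `ι (twP t m) = tw t (ι m)`.  Here both are produced inside:

* `hιP_of_gen` : the full square from the generator formulas (ring generators `formsGenS`);
* `hAnn_plug_new_of_gen` : `AnnPlugEq.hAnn_plug_new_of_eq'` with `tw htw hpar hιP` discharged
  (`TwInst.exists_tw_primeData`, (BND) at squarefree level) — binders = those of
  `G2.exists_twP_hecke` + the output `(twP, hι, hD)`;
* `hAnn_tw1F_of_gen` : the same at helper51's objects of record `Q.tw1F`, `hbase` discharged from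
  `hX : ¬ W.IsResiduallyModularOfLevel p (M / p)`, stated for `prodTw (G2.tw₁ …) (G2.twχ …)`, i.e.
  for the `tw` of `G2.T`.
-/
import Fermat.Agent.GE8.P3B.GB.B10.L.AnnG1Base
import Fermat.Agent.GE8.P3B.GB.B9.ProviderFlat.G2
import Fermat.Agent.GE8.P3B.StepGen
import Fermat.Agent.GE8.P3B.Ok3W

/- TWIN (helper6 B4 generator; conventions of helper24 / helper86) of `Fermat.Agent.GB.B10.L.AnnG2` with `p ≠ 3` relaxed to `Ok3A Sy 𝔪 p` / `Ok3W p W` (RISK-5 fix (B), step B4); everything below lives in the wrapper namespace `Fermat.Agent.GE8.P3B`. -/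
set_option linter.dupNamespace false
open Fermat Fermat.Agent Fermat.Agent.GB Fermat.Agent.GB.B10 Fermat.Agent.GB.B10.L Fermat.Agent.GB.B10.L.ThetaNew Fermat.Agent.GB.B3 Fermat.Agent.GB.B3.ChiLevelMulti Fermat.Agent.GB.B3.EisGamma0 Fermat.Agent.GB.B3.GamH Fermat.Agent.GB.B3.HeckeActH Fermat.Agent.GB.B3.RealLevel Fermat.Agent.GB.B3.TWChars Fermat.Agent.GB.B3.TWLevel Fermat.Agent.GB.B4 Fermat.Agent.GB.B4.Datum Fermat.Agent.GB.B4.Datum.ImageRing Fermat.Agent.GB.B4.Datum.TQCompat Fermat.Agent.GB.B4.Datum.TQFields Fermat.Agent.GB.B4.Twist Fermat.Agent.GB.B4.Twist.Asm Fermat.Agent.GB.B4.Twist.TwFinal Fermat.Agent.GB.B9 Fermat.Agent.GB.B9.ProviderFlat Fermat.Agent.GB.B9.ProviderFlat.H1 Fermat.Agent.GB.Setup Fermat.Agent.GB.Setup.SetupPkg Fermat.Agent.GJ Fermat.Agent.GJ.J2 Fermat.Agent.GJ.J2.Lat Fermat.Agent.GJ.J2.ZStruct Fermat.Agent.GM Fermat.Agent.GM.B Fermat.Agent.GM.EisClass Fermat.Agent.S16_helper49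

namespace Fermat.Agent.GE8.P3B

set_option autoImplicit false
set_option linter.unusedSectionVars false
set_option linter.unusedVariables false
set_option linter.style.haveILetI false

noncomputable section

open scoped MatrixGroups TensorProduct
open CongruenceSubgroup Matrix Matrix.SpecialLinearGroup ModularCurve.Period CuspForm
open S16_helper49 GM.B GM.EisClass
open GB.B3 GB.B3.EisGamma0 GB.B3.GamH
open GB.B4.Twist.Asm GB.B4.Twist.TwFinal GB.B4.Twist.TwInst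
open GB.B3.Tower GB.B3.TWChars GB.B3.FinalTW
open GB.B3.TWLevel GB.B3.Final
open GB.B3.HeckeActH GB.B3.StepInst
open GB.Setup.SetupPkg
open GB.B9.ProviderFlat.G1 GB.B9.ProviderFlat.H1
open GB.B10.L.AnnPlugEq GB.B10.L.AnnPlug
open GJ.J2.ZStruct GJ.J2.Lat GB.B3.LocTransport
open GB.B3.RealLevel
open GB.B10.L.ThetaNew GB.B3.ChiLevelMulti
open GB.B4.Datum.ImageRing GB.B4.Datum.TQFields
open GB.B4.Datum.TQCompat
open GB.B10.L.AnnG1 GB.B10.L.AnnG1Base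

namespace GB.B10.L.AnnG2

/-- local instance (Prop-valued class) -/
local instance factPrimeOff24 {S : Set ℕ} (l : PrimesOff S) : Fact (l.1 : ℕ).Prime := ⟨l.1.2⟩

/-! ### the full square from the generators -/

/-- an intertwining relation checked on ring generators (abstract modules) -/
theorem square_of_gens {A O P V : Type*} [Ring A] [CommRing O] [AddCommGroup P] [Module O P]
    [AddCommGroup V] [Module O V] (ι : P →ₗ[O] V) (twP : A →+* Module.End O P)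
    (twO : A →+* Module.End O V) (G : Set A) (hG : Subring.closure G = ⊤)
    (hgen : ∀ g ∈ G, ∀ y, ι (twP g y) = twO g (ι y)) (t : A) (y : P) :
    ι (twP t y) = twO t (ι y) := by
  have ht : t ∈ Subring.closure G := by
    rw [hG]
    exact Subring.mem_top t
  induction ht using Subring.closure_induction generalizing y with
  | mem x hx => exact hgen x hx y
  | zero => rw [map_zero, map_zero, LinearMap.zero_apply, LinearMap.zero_apply, map_zero]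
  | one => rw [map_one, map_one, Module.End.one_apply, Module.End.one_apply]
  | add a b _ _ ha hb =>
    rw [map_add, map_add, LinearMap.add_apply, LinearMap.add_apply, map_add, ha, hb]
  | neg a _ ha => rw [map_neg, map_neg, LinearMap.neg_apply, LinearMap.neg_apply, map_neg, ha]
  | mul a b _ _ ha hb =>
    rw [map_mul, map_mul, Module.End.mul_apply, Module.End.mul_apply, ha, hb]

section Square

variable {N p : ℕ} [NeZero N] [hpF : Fact p.Prime] {Kk : ℕ} {r e N' : ℕ → ℕ}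
variable (Sy : Symbols N)
variable {O : Type} [CommRing O] [IsDomain O] [IsPrincipalIdealRing O] [IsLocalRing O]
  [IsAdicComplete (IsLocalRing.maximalIdeal O) O] [Module.IsTorsionFree ℤ O] [CharZero O]
variable (𝔪 : Ideal (Sy.𝕋 O)) [𝔪.IsMaximal]
variable (H : PrimeData N p Kk r e N') {ϖ : O} {s0 : Sy.ι₁} (h : Plug.Hyp Sy 𝔪 p ϖ s0)
variable (j : ℕ) {N'' : ℕ} [NeZero N''] (S : Set ℕ)
  (dℓ : PrimesOff S → Gamma0 N) (hnd : ∀ l : PrimesOff S, ¬ (l.1 : ℕ) ∣ N)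
  (tw : ↥(heckeAlgebra N'' 2 S) →+*
    Module.End O ↥(parabolicHoms O (GammaH (Theta (Δs p e) H.psi j)) O))
  (htw : ∀ (l : PrimesOff S)
      (v : ↥(parabolicHoms O (GammaH (Theta (Δs p e) H.psi j)) O)),
    ((tw (formsGenS N'' S l) v :
        ↥(parabolicHoms O (GammaH (Theta (Δs p e) H.psi j)) O)) :
        Additive (GammaH (Theta (Δs p e) H.psi j)) →+ O)
      = diaH (Theta (Δs p e) H.psi j) O (dℓ l) (GamH.TH (Theta (Δs p e) H.psi j) O (hnd l)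
          (v : Additive (GammaH (Theta (Δs p e) H.psi j)) →+ O)))
  (hpar : ∀ x : (Plug.bigLevel Sy 𝔪 H h j).M,
    (Plug.bigReal Sy 𝔪 H h j).ι x ∈ parabolicHoms O (GammaH (Theta (Δs p e) H.psi j)) O)
  (twP : ↥(heckeAlgebra N'' 2 S) →+* Module.End O (Plug.bigLevel Sy 𝔪 H h j).M)
  (hι : ∀ (l : PrimesOff S) (x : (Plug.bigLevel Sy 𝔪 H h j).M),
    (Plug.bigReal Sy 𝔪 H h j).ι (twP (formsGenS N'' S l) x) =
      diaH (Theta (Δs p e) H.psi j) O (dℓ l)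
        (GamH.TH (Theta (Δs p e) H.psi j) O (hnd l) ((Plug.bigReal Sy 𝔪 H h j).ι x)))

/-- the realisation of the big level, with values in the parabolic classes -/
def iotaPar : (Plug.bigLevel Sy 𝔪 H h j).M →ₗ[O]
    ↥(parabolicHoms O (GammaH (Theta (Δs p e) H.psi j)) O) :=
  (Plug.bigReal Sy 𝔪 H h j).ι.codRestrict _ hpar

theorem coe_iotaPar (x : (Plug.bigLevel Sy 𝔪 H h j).M) :
    ((iotaPar Sy 𝔪 H h j hpar x :
      ↥(parabolicHoms O (GammaH (Theta (Δs p e) H.psi j)) O)) :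
      Additive (GammaH (Theta (Δs p e) H.psi j)) →+ O) = (Plug.bigReal Sy 𝔪 H h j).ι x := rfl

include htw hι in
/-- **the full square** `ι ∘ twP t = tw t ∘ ι` from the generator formulas -/
theorem hιP_of_gen (t : ↥(heckeAlgebra N'' 2 S)) (m : (Plug.bigLevel Sy 𝔪 H h j).M) :
    (Plug.bigReal Sy 𝔪 H h j).ι (twP t m) =
      ((tw t ⟨(Plug.bigReal Sy 𝔪 H h j).ι m, hpar m⟩ :
        ↥(parabolicHoms O (GammaH (Theta (Δs p e) H.psi j)) O)) :
        Additive (GammaH (Theta (Δs p e) H.psi j)) →+ O) := by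
  have key := square_of_gens (iotaPar Sy 𝔪 H h j hpar) twP tw (Set.range (formsGenS N'' S))
    (GB.B4.Twist.TwHom.closure_range_formsGenS N'' S)
    (fun g hg y => by
      obtain ⟨l, rfl⟩ := hg
      apply Subtype.ext
      have e1 := hι l y
      have e2 := htw l (iotaPar Sy 𝔪 H h j hpar y)
      exact e1.trans e2.symm) t m
  exact congrArg Subtype.val key

end Square

/-! ### (ANN) from the output of `G2.exists_twP_hecke`, abstract Plug level -/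

section TW

variable {N Nl p : ℕ} [NeZero N] [NeZero Nl] [hpF : Fact p.Prime] (hN : N = Nl * p) {Kk : ℕ}
  {r e N' : ℕ → ℕ}
variable (Sy : Symbols N) (hrN : ∀ j, Sy.r j ∣ Nl) (hpNl : ¬ p ∣ Nl)
variable {O : Type} [CommRing O] [IsDomain O] [IsPrincipalIdealRing O] [IsLocalRing O]
  [IsAdicComplete (IsLocalRing.maximalIdeal O) O] [Module.IsTorsionFree ℤ O] [CharZero O]
variable (𝔪 : Ideal (Sy.𝕋 O)) [𝔪.IsMaximal]
variable (H : PrimeData N p Kk r e N')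
  {ϖ : O} {s0 : Sy.ι₁} (h : Plug.Hyp Sy 𝔪 p ϖ s0)
variable (hbase : ∀ y : Additive (Gamma0 Nl) →+ O,
    IsLoc (HeckeActH.act0 (restrict (castSy hN Sy) hrN) O) 𝔪 y → y = 0)
variable (s k : ℕ) (c : Fin s → O) (hc : ∀ v : Fin s, c v ^ p ^ e (s + k - 1 - v) = 1)
  (hc1 : ∀ v, (1 : O) - c v ∈ Ideal.span {ϖ})
variable (hNsq : Squarefree N) (hj : s + k ≤ Kk)
  {N₀ : ℕ} [NeZero N₀] [NeZero (N₀ * p)] (hN₀ : N₀ * p = N * ∏ i : Fin (s + k), r i)
  (hpN₀ : ¬ p ∣ N₀)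
  (S : Finset ℕ) (hpS : p ∈ S) (hNS : ∀ q : ℕ, q.Prime → q ∣ N₀ * p → q ∈ S)
  (dℓ : PrimesOff (↑S : Set ℕ) → Gamma0 N)
  (hdℓ : ∀ (l : PrimesOff (↑S : Set ℕ)) (u : (ZMod N)ˣ),
    (u : ZMod N) = ((l.1 : ℕ) : ZMod N) →
    chi (Theta (Δs p e) H.psi (s + k)) (dℓ l) ^ 2 * Theta (Δs p e) H.psi (s + k) u = 1)
  (hnd : ∀ l : PrimesOff (↑S : Set ℕ), ¬ (l.1 : ℕ) ∣ N)
  (twP : ↥(heckeAlgebra (N₀ * p) 2 (↑S : Set ℕ)) →+*
    Module.End O (Plug.bigLevel Sy 𝔪 H h (s + k)).M)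
  (hι : ∀ (l : PrimesOff (↑S : Set ℕ)) (x : (Plug.bigLevel Sy 𝔪 H h (s + k)).M),
    (Plug.bigReal Sy 𝔪 H h (s + k)).ι (twP (formsGenS (N₀ * p) (↑S : Set ℕ) l) x) =
      diaH (Theta (Δs p e) H.psi (s + k)) O (dℓ l)
        (GamH.TH (Theta (Δs p e) H.psi (s + k)) O (hnd l)
          ((Plug.bigReal Sy 𝔪 H h (s + k)).ι x)))
  (hcomm : ∀ t i, twP t * (Plug.bigLevel Sy 𝔪 H h (s + k)).D i
    = (Plug.bigLevel Sy 𝔪 H h (s + k)).D i * twP t)

include hpNl hbase hNsq hj hN₀ hdℓ hι in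
/-- **the module-level (ANN) on `M¹_Q × M^χ_Q`**, `p`-new branch, for a `twP` characterised on the
generators (output of `G2.exists_twP_hecke`) -/
theorem hAnn_plug_new_of_gen (hne : ∀ i, i < Kk → r i ≠ p) :
    ∀ t₀ : O ⊗[ℤ] ↥(heckeAlgebra (N₀ * p) 2 (↑S : Set ℕ)),
      (∀ (a : O),
        ∀ x ∈ (LamNew hpN₀ : AddSubgroup
          (GB.B10.KumLevelHecke.levelData p (N₀ * p) hpS hNS).Λ),
        (GB.B10.KumLevelHecke.levelData p (N₀ * p) hpS hNS).heckeTensor O t₀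
          (a ⊗ₜ[ℤ] x) = 0) →
      ∀ m : (Plug.tw Sy 𝔪 H h s k c hc hc1).L1.M × (Plug.tw Sy 𝔪 H h s k c hc hc1).Lχ.M,
        twO O (prodTw O
          (tw1 (Plug.bigLevel Sy 𝔪 H h (s + k)) twP hcomm (Nfun_pos hpF.out e (s + k)) ϖ c
            (Plug.hc_Nfun s k c hc) hc1)
          (twChi (Plug.bigLevel Sy 𝔪 H h (s + k)) twP hcomm (Nfun_pos hpF.out e (s + k)) ϖ c
            (Plug.hc_Nfun s k c hc) hc1)) t₀ m = 0 := by
  classical
  have hS : ∀ q : ℕ, q.Prime → q ∣ N₀ * p → q ∈ (↑S : Set ℕ) :=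
    GB.B10.L.Ann.hS_of_hNS S hNS
  have key := exists_tw_primeData (O := O) H hpF.out h.hp2 (s + k) hj hN₀
    (↑S : Set ℕ) hS dℓ hdℓ
  have hpar := GB.B3.Boundary.Mat.bigReal_mem_parabolicHoms_of_squarefree Sy 𝔪 H h
    hNsq (s + k)
  exact hAnn_plug_new_of_eq' hN Sy hrN hpNl 𝔪 H h hbase s k c hc hc1 hj h.hp2 hN₀ hpN₀ S hpS hNS
    dℓ hdℓ key.choose (fun l v => key.choose_spec.1 l v) hpar twP
    (hιP_of_gen Sy 𝔪 H h (s + k) (↑S : Set ℕ) dℓ hnd key.choose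
      (fun l v => key.choose_spec.1 l v) hpar twP hι) hcomm hne

end TW

/-! ### at helper51's objects of record `Q.tw1F` -/

section AtQ

variable {p : ℕ} [hpF : Fact p.Prime] {W : WeierstrassCurve ℤ}
  {hcard₁ : Nat.card (Submodule.torsionBy ℤ
    ((W.map (Int.castRingHom ℚ)).toAffine.baseChange (AlgebraicClosure ℚ)).Point p) = p ^ 2}
  {hker : GaloisFactorsThroughFiniteLevel
    (WeierstrassCurve.Affine.Point.galoisRepModuleEnd (K := AlgebraicClosure ℚ) ℚ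
      (W.map (Int.castRingHom ℚ)) p)}
  {M A : ℕ} {P : Pkg p W hcard₁ hker M A} {g n : ℕ} (Q : TWSet P g n)
  {q eq : ℕ} (hq : q.Prime) (hqM : q ∣ M) (hsq : Squarefree M) (hcong : p ^ eq ∣ q - 1)
  (hp3 : Ok3W p W) {cq : P.O} (hcq : cq ^ p ^ eq = 1)
  (hcq1 : (1 : P.O) - cq ∈ Ideal.span {P.ϖ})
  (hpM : p ∣ M) (hqp : q ≠ p)
  {N₀ : ℕ} [NeZero N₀] [NeZero (N₀ * p)]
  (hN₀ : N₀ * p = Q.N * ∏ i : Fin (1 + g), rOf Q.qv q i) (hpN₀ : ¬ p ∣ N₀)
  (S : Finset ℕ) (hpS : p ∈ S) (hNS : ∀ q' : ℕ, q'.Prime → q' ∣ N₀ * p → q' ∈ S)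
  (hX : ¬ W.IsResiduallyModularOfLevel p (M / p))
  (dℓ : PrimesOff (↑S : Set ℕ) → Gamma0 Q.N)
  (hdℓ : ∀ (l : PrimesOff (↑S : Set ℕ)) (u : (ZMod Q.N)ˣ),
    (u : ZMod Q.N) = ((l.1 : ℕ) : ZMod Q.N) →
    chi (Theta (Δs p (eOf g (n + 1) eq)) (Q.primeData hq hqM hsq hcong).psi (1 + g)) (dℓ l) ^ 2
      * Theta (Δs p (eOf g (n + 1) eq)) (Q.primeData hq hqM hsq hcong).psi (1 + g) u = 1)
  (hnd : ∀ l : PrimesOff (↑S : Set ℕ), ¬ (l.1 : ℕ) ∣ Q.N)
  (twP : ↥(heckeAlgebra (N₀ * p) 2 (↑S : Set ℕ)) →+*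
    Module.End P.O (Plug.bigLevel Q.Sy Q.𝔪 (Q.primeData hq hqM hsq hcong) (Q.hyp hp3) (1 + g)).M)
  (hι : ∀ (l : PrimesOff (↑S : Set ℕ))
      (x : (Plug.bigLevel Q.Sy Q.𝔪 (Q.primeData hq hqM hsq hcong) (Q.hyp hp3) (1 + g)).M),
    (Plug.bigReal Q.Sy Q.𝔪 (Q.primeData hq hqM hsq hcong) (Q.hyp hp3) (1 + g)).ι
        (twP (formsGenS (N₀ * p) (↑S : Set ℕ) l) x) =
      diaH (Theta (Δs p (eOf g (n + 1) eq)) (Q.primeData hq hqM hsq hcong).psi (1 + g)) P.O (dℓ l)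
        (GamH.TH (Theta (Δs p (eOf g (n + 1) eq)) (Q.primeData hq hqM hsq hcong).psi (1 + g)) P.O
          (hnd l)
          ((Plug.bigReal Q.Sy Q.𝔪 (Q.primeData hq hqM hsq hcong) (Q.hyp hp3) (1 + g)).ι x)))
  (hcomm : ∀ t i, twP t *
      (Plug.bigLevel Q.Sy Q.𝔪 (Q.primeData hq hqM hsq hcong) (Q.hyp hp3) (1 + g)).D i
    = (Plug.bigLevel Q.Sy Q.𝔪 (Q.primeData hq hqM hsq hcong) (Q.hyp hp3) (1 + g)).D i * twP t)

include hpM hqp hN₀ hpN₀ hX hdℓ hι in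
/-- **the `hAnn` binder at `Q.tw1F` from the output `(twP, hι, hD)` of `G2.exists_twP_hecke`**
(`p`-new branch): the product action is `prodTw (G2.tw₁ …) (G2.twχ …)`, i.e. the `tw` of `G2.T`. -/
theorem hAnn_tw1F_of_gen :
    ∀ t₀ : P.O ⊗[ℤ] ↥(heckeAlgebra (N₀ * p) 2 (↑S : Set ℕ)),
      (∀ (a : P.O),
        ∀ x ∈ (LamNew hpN₀ : AddSubgroup
          (GB.B10.KumLevelHecke.levelData p (N₀ * p) hpS hNS).Λ),
        (GB.B10.KumLevelHecke.levelData p (N₀ * p) hpS hNS).heckeTensor P.O t₀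
          (a ⊗ₜ[ℤ] x) = 0) →
      ∀ m : (Q.tw1F hq hqM hsq hcong hp3 hcq hcq1).L1.M × (Q.tw1F hq hqM hsq hcong hp3 hcq hcq1).Lχ.M,
        twO P.O (prodTw P.O
          (tw1
            (Plug.bigLevel Q.Sy Q.𝔪 (Q.primeData hq hqM hsq hcong) (Q.hyp hp3) (1 + g)) twP hcomm
            (Nfun_pos hpF.out (eOf g (n + 1) eq) (1 + g)) P.ϖ (fun _ : Fin 1 => cq)
            (Plug.hc_Nfun 1 g (fun _ : Fin 1 => cq)
              (TWSet.hc_one (g := g) (eOf_eq (n + 1) eq) hcq)) (fun _ => hcq1))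
          (twChi
            (Plug.bigLevel Q.Sy Q.𝔪 (Q.primeData hq hqM hsq hcong) (Q.hyp hp3) (1 + g)) twP hcomm
            (Nfun_pos hpF.out (eOf g (n + 1) eq) (1 + g)) P.ϖ (fun _ : Fin 1 => cq)
            (Plug.hc_Nfun 1 g (fun _ : Fin 1 => cq)
              (TWSet.hc_one (g := g) (eOf_eq (n + 1) eq) hcq)) (fun _ => hcq1))) t₀ m = 0 :=
  haveI : NeZero (Nl Q) := ⟨nl_ne_zero Q hpM⟩
  hAnn_plug_new_of_gen (hN Q hpM) Q.Sy (hrN Q) (hpNl Q hsq hpM) Q.𝔪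
    (Q.primeData hq hqM hsq hcong) (Q.hyp hp3) (hbase_Nl_p Q hsq hpM hX) 1 g (fun _ => cq)
    (TWSet.hc_one (g := g) (eOf_eq (n + 1) eq) hcq) (fun _ => hcq1)
    (GB.B9.ProviderFlat.G7.TWSetG7.squarefree_N Q hsq) (by omega)
    hN₀ hpN₀ S hpS hNS dℓ hdℓ hnd twP hι hcomm (hne Q hqp)

include hpM hqp hN₀ hpN₀ hX hdℓ hι in
/-- the same statement in the spelling of `G2.lean` (`G2.tw₁`, `G2.twχ`): plug check -/
theorem hAnn_tw1F_of_gen_G2 :
    ∀ t₀ : P.O ⊗[ℤ] ↥(heckeAlgebra (N₀ * p) 2 (↑S : Set ℕ)),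
      (∀ (a : P.O),
        ∀ x ∈ (LamNew hpN₀ : AddSubgroup
          (GB.B10.KumLevelHecke.levelData p (N₀ * p) hpS hNS).Λ),
        (GB.B10.KumLevelHecke.levelData p (N₀ * p) hpS hNS).heckeTensor P.O t₀
          (a ⊗ₜ[ℤ] x) = 0) →
      ∀ m : (Q.tw1F hq hqM hsq hcong hp3 hcq hcq1).L1.M × (Q.tw1F hq hqM hsq hcong hp3 hcq hcq1).Lχ.M,
        twO P.O (prodTw P.O
          (GB.B9.ProviderFlat.G2.tw₁ Q.Sy Q.𝔪 (Q.primeData hq hqM hsq hcong)
            (Q.hyp hp3) 1 g (fun _ : Fin 1 => cq) (TWSet.hc_one (g := g) (eOf_eq (n + 1) eq) hcq)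
            (fun _ => hcq1) twP hcomm)
          (GB.B9.ProviderFlat.G2.twχ Q.Sy Q.𝔪 (Q.primeData hq hqM hsq hcong)
            (Q.hyp hp3) 1 g (fun _ : Fin 1 => cq) (TWSet.hc_one (g := g) (eOf_eq (n + 1) eq) hcq)
            (fun _ => hcq1) twP hcomm)) t₀ m = 0 :=
  hAnn_tw1F_of_gen Q hq hqM hsq hcong hp3 hcq hcq1 hpM hqp hN₀ hpN₀ S hpS hNS hX dℓ hdℓ hnd twP hι
    hcomm

end AtQ

end GB.B10.L.AnnG2

end

end Fermat.Agent.GE8.P3B
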